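/-
S18lib / Gink / Residue  (helper4)

Plumbing for the residue field `k = kRes A` of a valuation subring `A` of `Q̄` over `ℓ`:
* `k` is algebraically closed of characteristic `ℓ`;
* a ring homomorphism `iotaA A : integralClosure ℤ ℂ →+* ResidueField A`,
so that the S28lib bricks instantiate directly at `k = ResidueField A`.
-/
import Mathlib
import Fermat.Prelude.Def_FLTPrelim_Ramification

set_option autoImplicit false

noncomputable section

namespace Fermat.Agent.S18lib.Gink

open Polynomial

section General

variable {L : Type*} [Field L] (A : ValuationSubring L)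

/-- elements of `L` integral over `A` lie in `A` -/
theorem mem_of_isIntegral {y : L} (hy : IsIntegral A y) : y ∈ A := by
  obtain ⟨z, hz⟩ := (IsIntegrallyClosed.isIntegral_iff (R := A) (K := L)).mp hy
  rw [← hz]
  exact z.2

/-- elements of `L` integral over `ℤ` lie in `A` -/
theorem mem_of_isIntegral_int {y : L} (hy : IsIntegral ℤ y) : y ∈ A :=
  mem_of_isIntegral A hy.tower_top

/-- the residue field of a valuation subring of an algebraically closed field is algebraically
closed -/
theorem isAlgClosed_residueField [IsAlgClosed L] : IsAlgClosed (IsLocalRing.ResidueField A) := by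
  refine IsAlgClosed.of_exists_root _ fun p hpm hpirr => ?_
  have hlift : p ∈ Polynomial.lifts (IsLocalRing.residue A) := by
    obtain ⟨P, hP⟩ := Polynomial.map_surjective _ IsLocalRing.residue_surjective p
    exact ⟨P, hP⟩
  obtain ⟨P, hPmap, hPdeg, hPmonic⟩ := Polynomial.lifts_and_natDegree_eq_and_monic hlift hpm
  have hpdeg : p.natDegree ≠ 0 := fun h0 => by
    have := Polynomial.natDegree_pos_iff_degree_pos.mpr (Polynomial.degree_pos_of_irreducible hpirr)
    omega
  have hdeg : (P.map A.subtype).degree ≠ 0 := by
    rw [Polynomial.degree_eq_natDegree (hPmonic.map A.subtype).ne_zero,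
      hPmonic.natDegree_map, hPdeg]
    exact_mod_cast hpdeg
  obtain ⟨y, hy⟩ := IsAlgClosed.exists_root (P.map A.subtype) hdeg
  have hyint : IsIntegral A y := ⟨P, hPmonic, by
    rw [Polynomial.IsRoot.def, Polynomial.eval_map] at hy
    exact hy⟩
  have hyA := mem_of_isIntegral A hyint
  refine ⟨IsLocalRing.residue A ⟨y, hyA⟩, ?_⟩
  rw [← hPmap, Polynomial.eval_map, Polynomial.eval₂_hom]
  have h0 : P.eval (⟨y, hyA⟩ : A) = 0 := by
    apply Subtype.ext
    have := hy
    rw [Polynomial.IsRoot.def, Polynomial.eval_map] at this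
    show A.subtype (P.eval (⟨y, hyA⟩ : A)) = 0
    rw [← Polynomial.eval₂_hom]
    exact this
  rw [h0, map_zero]

/-- the residue characteristic -/
theorem charP_residueField {ℓ : ℕ} (hℓ : ℓ.Prime) (hA : A.LiesOverPrime ℓ) :
    CharP (IsLocalRing.ResidueField A) ℓ := by
  have hmemA : (ℓ : L) ∈ A := natCast_mem A ℓ
  have hzero : ((ℓ : ℕ) : IsLocalRing.ResidueField A) = 0 := by
    have h1 : ((ℓ : ℕ) : A) ∈ IsLocalRing.maximalIdeal A := by
      rw [IsLocalRing.mem_maximalIdeal, mem_nonunits_iff]
      intro hu
      have h2 : A.valuation (ℓ : L) = 1 :=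
        (A.valuation_eq_one_iff ⟨(ℓ : L), hmemA⟩).mp (by
          convert hu using 1
          exact Subtype.ext (by push_cast; rfl))
      have h3 : A.valuation (ℓ : L) < 1 := (A.mem_nonunits_iff (x := (ℓ : L))).mp hA
      exact absurd h2 h3.ne
    have h2 := (IsLocalRing.residue_eq_zero_iff _).mpr h1
    rwa [map_natCast] at h2
  obtain ⟨p, hp⟩ := CharP.exists (IsLocalRing.ResidueField A)
  have hdvd : p ∣ ℓ := (CharP.cast_eq_zero_iff (IsLocalRing.ResidueField A) p ℓ).mp hzero
  rcases (Nat.dvd_prime hℓ).mp hdvd with h1 | h1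
  · subst h1
    exact absurd (CharP.cast_eq_zero (IsLocalRing.ResidueField A) 1) (by
      rw [Nat.cast_one]; exact one_ne_zero)
  · subst h1; exact hp

end General

section Iota

variable (A : ValuationSubring (AlgebraicClosure ℚ))

/-- an embedding of the algebraic integers of `ℂ` into `Q̄` -/
def intToQbar : integralClosure ℤ ℂ →ₐ[ℤ] AlgebraicClosure ℚ :=
  IsAlgClosed.lift

/-- the algebraic integers of `ℂ` map into `A` -/
def intToA : integralClosure ℤ ℂ →+* A :=
  RingHom.codRestrict (intToQbar : integralClosure ℤ ℂ →+* AlgebraicClosure ℚ) A.toSubring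
    fun x => mem_of_isIntegral_int A ((Algebra.IsIntegral.isIntegral (R := ℤ) x).map intToQbar)

/-- a ring homomorphism from the algebraic integers of `ℂ` to the residue field of `A` -/
def iotaA : integralClosure ℤ ℂ →+* IsLocalRing.ResidueField A :=
  (IsLocalRing.residue A).comp (intToA A)

end Iota

end Fermat.Agent.S18lib.Gink
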