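/-
S18lib / Gink / Bricks  (helper4)

The S28lib bricks instantiated directly at the residue field `k = kRes A` of a valuation subring
`A` of `Q̄` over `ℓ`: prime-level modular equations, unit data and the `ψ(N)` monomials in the
`j̄(q^d)` which are independent over `k[j̄]`.
-/
import Fermat.Agent.S18lib.Gink.Residue
import Fermat.Agent.S18lib.Setup.Modular
import Fermat.Agent.S28lib.PhiP
import Fermat.Agent.S28lib.UnitB
import Fermat.Agent.S28lib.Theta
import Fermat.Agent.S28lib.Chain

set_option autoImplicit false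
set_option linter.unusedSectionVars false
set_option linter.style.haveILetI false

noncomputable section

namespace Fermat.Agent.S18lib.Gink

open ModularCurve Fermat.Agent.S28lib

variable (A : ValuationSubring (AlgebraicClosure ℚ)) {ℓ : ℕ} [Fact ℓ.Prime]

instance isAlgClosed_kRes : IsAlgClosed (kRes A) := isAlgClosed_residueField A

theorem charP_kRes (hA : A.LiesOverPrime ℓ) : CharP (kRes A) ℓ :=
  charP_residueField A (Fact.out : ℓ.Prime) hA

variable {A}

theorem natCast_ne_zero_kRes (hA : A.LiesOverPrime ℓ) {n : ℕ} (h : ¬ ℓ ∣ n) :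
    (n : kRes A) ≠ 0 := by
  haveI := charP_kRes A hA
  intro h0
  exact h ((CharP.cast_eq_zero_iff (kRes A) ℓ n).mp h0)

variable (A)

/-- the prime-level modular equation over `kRes A` -/
def modPolyData_kRes (hA : A.LiesOverPrime ℓ) (p : ℕ) [Fact p.Prime] (hp : ¬ ℓ ∣ p) :
    ModPolyData (kRes A) p :=
  modPolyData_of_ringHom p (iotaA A) (natCast_ne_zero_kRes hA hp)

/-- the unit data over `kRes A` -/
def unitData_kRes (hA : A.LiesOverPrime ℓ) (p : ℕ) [Fact p.Prime] (hp : ¬ ℓ ∣ p) :
    UnitData (kRes A) p :=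
  have h1 := nuQ_integral p (iotaA A) (natCast_ne_zero_kRes hA hp)
  have h2 := nuQ_rational p (natCast_ne_zero_kRes hA hp) (modPolyData_kRes A hA p hp)
  { Ψ := h1.choose
    monic := h1.choose_spec.1
    root := h1.choose_spec.2
    A := h2.choose
    B := h2.choose_spec.choose
    den_ne := h2.choose_spec.choose_spec.1
    expr := h2.choose_spec.choose_spec.2 }

/-- **`ψ(N)` independent monomials over `kRes A`.** -/
theorem exists_independent_monomials_kRes (hA : A.LiesOverPrime ℓ) (N : ℕ) [NeZero N]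
    (hℓN : ¬ ℓ ∣ N) :
    ∃ x : Fin (dedekindPsi N) → MvPolynomial ℕ ℤ, (∀ i, ∀ d ∈ (x i).vars, d ∣ N) ∧
      ∀ P : Fin (dedekindPsi N) → Polynomial (kRes A),
        ∑ i, evalJ (kRes A) (jqModC (kRes A)) (P i) * evalDiv (kRes A) (x i) = 0 → ∀ i, P i = 0 := by
  have hpk : ∀ p : ℕ, p ∣ N → ¬ ℓ ∣ p := fun p hp h => hℓN (h.trans hp)
  refine exists_independent_monomials (kRes A) N (natCast_ne_zero_kRes hA hℓN) ?_ ?_
  · intro p _ hp hpN
    haveI : Fact p.Prime := ⟨hp⟩
    exact modPolyData_kRes A hA p (hpk p hpN)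
  · intro p _ hp hpN
    haveI : Fact p.Prime := ⟨hp⟩
    exact unitData_kRes A hA p (hpk p hpN)

end Fermat.Agent.S18lib.Gink
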