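/-
S18lib / Gink / SepPoly  (helper4)

The prime-level modular equation `Φ_p(X, j(q^e))` is a separable polynomial over `k((q))` (it has
`p + 1` distinct roots after `q ↦ q^p`), and `j(q^{e p})` is one of its roots.  Valid over any
field `k` carrying a `ModPolyData k p`.
-/
import Fermat.Agent.S28lib.ChainTower

set_option autoImplicit false
set_option linter.unusedSectionVars false

noncomputable section

namespace Fermat.Agent.S18lib.Gink

open ModularCurve Fermat.Agent.S28lib Polynomial

variable {k : Type*} [Field k]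

/-- `q ↦ q^p` applied to `Φ(X, j(q^e))` -/
theorem map_qExpand_map_evalJ {p : ℕ} [NeZero p] (D : ModPolyData k p) (e : ℕ) :
    (D.Φ.map (evalJ k (jAt k e))).map (qExpand k p) = D.Φ.map (evalJ k (jAt k (e * p))) := by
  rw [Polynomial.map_map, comp_evalJ (qExpand k p) (fun c => qExpand_C p c) (jAt k e),
    Chain.qExpand_jAt, mul_comm]

/-- the `p + 1` roots of `Φ(X, j(q^{e p}))` are distinct -/
theorem separable_map_evalJ_mul {p : ℕ} [NeZero p] (hp : p.Prime) (D : ModPolyData k p) (e : ℕ)
    [NeZero e] : (D.Φ.map (evalJ k (jAt k (e * p)))).Separable := by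
  rw [Chain.factor_jAt k D e]
  have he0 : e ≠ 0 := NeZero.ne e
  have : NeZero (e * p * p) := ⟨Nat.mul_ne_zero (Nat.mul_ne_zero he0 hp.ne_zero) hp.ne_zero⟩
  refine Polynomial.Separable.mul (Polynomial.separable_X_sub_C) ?_ ?_
  · rw [Polynomial.separable_prod_X_sub_C_iff']
    intro i hi i' hi' h
    exact D.prim.pow_inj (Finset.mem_range.mp hi) (Finset.mem_range.mp hi') (jS_inj.mp h).1
  · refine IsCoprime.prod_right fun i _ => ?_
    apply Polynomial.isCoprime_X_sub_C_of_isUnit_sub
    rw [isUnit_iff_ne_zero, sub_ne_zero, ← jS_one]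
    intro h
    have h1 := (jS_inj.mp h).2
    have h2 : e * p * p = e * 1 := by rw [h1, mul_one]
    rw [mul_assoc] at h2
    have h3 := Nat.eq_of_mul_eq_mul_left (Nat.pos_of_ne_zero he0) h2
    have := hp.two_le
    nlinarith

/-- **`Φ_p(X, j(q^e))` is separable.** -/
theorem separable_map_evalJ {p : ℕ} [NeZero p] (hp : p.Prime) (D : ModPolyData k p) (e : ℕ)
    (he : e ≠ 0) : (D.Φ.map (evalJ k (jAt k e))).Separable := by
  have : NeZero e := ⟨he⟩
  rw [← Polynomial.separable_map (qExpand k p), map_qExpand_map_evalJ]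
  exact separable_map_evalJ_mul hp D e

/-- **`j(q^{e p})` is a root of `Φ_p(X, j(q^e))`.** -/
theorem eval_jAt_map_evalJ {p : ℕ} [NeZero p] (D : ModPolyData k p) (e : ℕ) (he : e ≠ 0) :
    (D.Φ.map (evalJ k (jAt k e))).eval (jAt k (e * p)) = 0 := by
  have : NeZero e := ⟨he⟩
  apply qExpand_injective (R := k) p
  rw [map_zero, ← Polynomial.eval_map_apply, map_qExpand_map_evalJ, Chain.qExpand_jAt,
    Chain.factor_jAt k D e, Polynomial.eval_mul, Polynomial.eval_sub, Polynomial.eval_X,
    Polynomial.eval_C, show p * (e * p) = e * p * p by ring, sub_self, zero_mul]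

end Fermat.Agent.S18lib.Gink
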