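/-
S18lib / Gink / CuspVertex  (helper4)

(Cusp-k), part 1: the "Tate vertices" `(ζ, e) ↦ j(ζ u^e)`, the `p`-adjacency relation (up:
`(ζ^p, p e)`; down: `(ξ, e / p)` with `ξ^p = ζ`), and the fact that in ANY extension field of
`k((u))` the roots of `Φ_p(X, j(ζ u^e))`, `p ∣ e`, are the series of the `p`-neighbours of `(ζ, e)`.
-/
import Fermat.Agent.S28lib.ChainStep
import Fermat.Agent.S18lib.Gink.SepPoly

set_option autoImplicit false
set_option linter.unusedSectionVars false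

noncomputable section

namespace Fermat.Agent.S18lib.Gink

open ModularCurve Fermat.Agent.S28lib Fermat.Agent.S28lib.Kummer Polynomial

variable {k : Type*} [Field k]

/-- the series `j(ζ u^e)` of a vertex `(ζ, e)` (junk value `0` for `e = 0`) -/
def jV (v : kˣ × ℕ) : LaurentSeries k :=
  if h : v.2 = 0 then 0 else @jS k _ v.1 v.2 ⟨h⟩

theorem jV_of_ne {v : kˣ × ℕ} (h : v.2 ≠ 0) : jV v = @jS k _ v.1 v.2 ⟨h⟩ := dif_neg h

theorem jV_mk (ζ : kˣ) (e : ℕ) [he : NeZero e] : jV (ζ, e) = jS k ζ e := by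
  rw [jV_of_ne (show ((ζ, e) : kˣ × ℕ).2 ≠ 0 from he.out)]

theorem jV_inj {v w : kˣ × ℕ} (hv : v.2 ≠ 0) (hw : w.2 ≠ 0) (h : jV v = jV w) : v = w := by
  rw [jV_of_ne hv, jV_of_ne hw] at h
  have : NeZero v.2 := ⟨hv⟩
  have : NeZero w.2 := ⟨hw⟩
  obtain ⟨h1, h2⟩ := jS_inj.mp h
  exact Prod.ext h1 h2

theorem jV_ne_zero {v : kˣ × ℕ} (hv : v.2 ≠ 0) : jV v ≠ 0 := by
  rw [jV_of_ne hv]
  have : NeZero v.2 := ⟨hv⟩
  exact Kummer.jS_ne_zero _ _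

/-- the base vertex `(1, e)` is `j(u^e)` -/
theorem jV_one (e : ℕ) (he : e ≠ 0) : jV ((1 : kˣ), e) = jAt k e := by
  have : NeZero e := ⟨he⟩
  rw [jV_mk, jS_one]

/-- twisting `u ↦ ξ u` moves the vertex `(ζ, e)` to `(ξ^e ζ, e)` -/
theorem twist_jV (ξ : kˣ) (v : kˣ × ℕ) : twist ξ (jV v) = jV (ξ ^ v.2 * v.1, v.2) := by
  by_cases hv : v.2 = 0
  · rw [jV, dif_pos hv, jV, dif_pos (show ((ξ ^ v.2 * v.1, v.2) : kˣ × ℕ).2 = 0 from hv), map_zero]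
  · have : NeZero v.2 := ⟨hv⟩
    rw [jV_of_ne hv, Kummer.twist_jS, jV_mk]

/-- `w` is the upper `p`-neighbour of `v` -/
def IsUp (p : ℕ) (v w : kˣ × ℕ) : Prop := w.1 = v.1 ^ p ∧ w.2 = p * v.2

/-- `w` is a lower `p`-neighbour of `v` -/
def IsDown (p : ℕ) (v w : kˣ × ℕ) : Prop := w.1 ^ p = v.1 ∧ p * w.2 = v.2

/-- `p`-adjacency of vertices -/
def Adj (p : ℕ) (v w : kˣ × ℕ) : Prop := IsUp p v w ∨ IsDown p v w

theorem IsUp.snd_ne_zero {p : ℕ} {v w : kˣ × ℕ} (h : IsUp p v w) (hp : p ≠ 0) (hv : v.2 ≠ 0) :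
    w.2 ≠ 0 := by
  rw [h.2]; exact Nat.mul_ne_zero hp hv

theorem IsDown.snd_ne_zero {p : ℕ} {v w : kˣ × ℕ} (h : IsDown p v w) (hv : v.2 ≠ 0) :
    w.2 ≠ 0 := by
  intro h0
  apply hv
  rw [← h.2, h0, mul_zero]

theorem Adj.snd_ne_zero {p : ℕ} {v w : kˣ × ℕ} (h : Adj p v w) (hp : p ≠ 0) (hv : v.2 ≠ 0) :
    w.2 ≠ 0 := by
  rcases h with h | h
  · exact h.snd_ne_zero hp hv
  · exact h.snd_ne_zero hv

/-- up and down are inverse to each other -/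
theorem IsUp.isDown {p : ℕ} {v w : kˣ × ℕ} (h : IsUp p v w) : IsDown p w v :=
  ⟨h.1.symm, h.2.symm⟩

theorem IsDown.isUp {p : ℕ} {v w : kˣ × ℕ} (h : IsDown p v w) : IsUp p w v :=
  ⟨h.1.symm, h.2.symm⟩

theorem Adj.symm {p : ℕ} {v w : kˣ × ℕ} (h : Adj p v w) : Adj p w v := by
  rcases h with h | h
  · exact Or.inr h.isDown
  · exact Or.inl h.isUp

/-- the upper neighbour is unique -/
theorem IsUp.unique {p : ℕ} {v w w' : kˣ × ℕ} (h : IsUp p v w) (h' : IsUp p v w') : w = w' :=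
  Prod.ext (h.1.trans h'.1.symm) (h.2.trans h'.2.symm)

/-- **Roots of the modular equation.** In any extension field `Ω` of `k((u))`, the roots of
`Φ_p(X, j(ζ u^e))` with `p ∣ e` are the series of the `p`-neighbours of `(ζ, e)`. -/
theorem exists_adj_of_root [IsAlgClosed k] {p : ℕ} [NeZero p] (D : ModPolyData k p)
    {Ω : Type*} [Field Ω] (ι : LaurentSeries k →+* Ω) (v : kˣ × ℕ) (hv : v.2 ≠ 0)
    (hpv : p ∣ v.2) {y : Ω}
    (hy : ((D.Φ.map (evalJ k (jV v))).map ι).eval y = 0) : ∃ w, Adj p v w ∧ y = ι (jV w) := by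
  obtain ⟨e', he'⟩ := hpv
  have hp0 : p ≠ 0 := NeZero.ne p
  have he'0 : e' ≠ 0 := by
    rintro rfl
    exact hv (by rw [he', mul_zero])
  have : NeZero e' := ⟨he'0⟩
  have : NeZero v.2 := ⟨hv⟩
  obtain ⟨ζ₀, hζ₀⟩ := Chain.exists_unit_pow_eq v.1 (Nat.pos_of_ne_zero hp0)
  have hfac := D.factor_subst ζ₀ e'
  have hv' : jV v = jS k (ζ₀ ^ p) (e' * p) := by
    rw [jV_of_ne hv, hζ₀]
    exact Kummer.jS_congr _ (by rw [he', mul_comm])
  rw [hv', hfac, Polynomial.map_mul, Polynomial.eval_mul, Polynomial.map_sub, Polynomial.map_X,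
    Polynomial.map_C, Polynomial.eval_sub, Polynomial.eval_X, Polynomial.eval_C,
    Polynomial.map_prod, Polynomial.eval_prod, mul_eq_zero, Finset.prod_eq_zero_iff] at hy
  rcases hy with hy | ⟨i, -, hy⟩
  · refine ⟨(ζ₀ ^ (p * p), e' * p * p), Or.inl ⟨?_, ?_⟩, ?_⟩
    · show ζ₀ ^ (p * p) = v.1 ^ p
      rw [← hζ₀, ← pow_mul]
    · show e' * p * p = p * v.2
      rw [he']; ring
    · rw [jV_mk]
      exact sub_eq_zero.mp hy
  · rw [Polynomial.map_sub, Polynomial.map_X, Polynomial.map_C, Polynomial.eval_sub,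
      Polynomial.eval_X, Polynomial.eval_C] at hy
    refine ⟨(ζ₀ * D.ζ ^ i, e'), Or.inr ⟨?_, ?_⟩, ?_⟩
    · show (ζ₀ * D.ζ ^ i) ^ p = v.1
      rw [mul_pow, hζ₀, ← pow_mul, mul_comm i p, pow_mul, D.prim.pow_eq_one, one_pow, mul_one]
    · show p * e' = v.2
      exact he'.symm
    · rw [jV_mk]
      exact sub_eq_zero.mp hy

end Fermat.Agent.S18lib.Gink
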