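/-
S18lib / Gink / JK  (helper4)

The function `j̄ = j̄(q)` of `FRes A N = k(j̄(q^d) : d ∣ N) ⊆ k((q))`: transcendence over `k`,
`q`-order `-1`, the elements `j̄(q^d)` and the monomials of `S28lib.evalDiv` as elements of
`FRes A N`, and the dictionary between polynomial evaluation in `FRes A N` and in `k((q))`.
-/
import Fermat.Agent.S18lib.Gink.Bricks
import Fermat.Agent.S28lib.Series

set_option autoImplicit false
set_option linter.unusedSectionVars false

noncomputable section

namespace Fermat.Agent.S18lib.Gink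

open ModularCurve Fermat.Agent.S28lib IntermediateField Polynomial

section General

variable (K : Type*) [Field K] (N : ℕ) [NeZero N]

theorem jAt_mem_fullC {d : ℕ} (hd : d ∣ N) : jAt K d ∈ modularFunctionFieldFullC K N := by
  have hd0 : d ≠ 0 := fun h => NeZero.ne N (by rw [h] at hd; exact Nat.eq_zero_of_zero_dvd hd)
  have : NeZero d := ⟨hd0⟩
  rw [jAt_of_neZero]
  exact jqModCd_mem_full K N hd

theorem evalDiv_mem_fullC (P : MvPolynomial ℕ ℤ) (hP : ∀ d ∈ P.vars, d ∣ N) :
    evalDiv K P ∈ modularFunctionFieldFullC K N := by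
  rw [evalDiv, MvPolynomial.coe_eval₂Hom, MvPolynomial.eval₂_eq]
  refine sum_mem fun m hm => mul_mem ?_ (prod_mem fun d hd => pow_mem ?_ _)
  · rw [eq_intCast]
    exact intCast_mem _ _
  · exact jAt_mem_fullC K N (hP d ((MvPolynomial.mem_vars_iff_mem_support d).mpr ⟨m, hm, hd⟩))

theorem evalJ_jqModC_mem_fullC (P : K[X]) :
    evalJ K (jqModC K) P ∈ modularFunctionFieldFullC K N := by
  have h : evalJ K (jqModC K) P = Polynomial.aeval (jqModC K) P := rfl
  rw [h, Polynomial.aeval_def, Polynomial.eval₂_eq_sum_range]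
  exact sum_mem fun i _ => mul_mem (IntermediateField.algebraMap_mem _ _)
    (pow_mem (jqModC_mem_full K N) _)

/-- the generators `j(q^d)`, `d ∣ N`, in the `jAt` spelling -/
theorem divisorExpansionsC_eq : divisorExpansionsC K N = {x | ∃ d, d ∣ N ∧ x = jAt K d} := by
  ext x
  constructor
  · rintro ⟨d, hd0, hd, rfl⟩
    have := hd0
    exact ⟨d, hd, (jAt_of_neZero K d).symm⟩
  · rintro ⟨d, hd, rfl⟩
    have hd0 : d ≠ 0 := fun h => NeZero.ne N (by rw [h] at hd; exact Nat.eq_zero_of_zero_dvd hd)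
    have : NeZero d := ⟨hd0⟩
    exact ⟨d, this, hd, jAt_of_neZero K d⟩

end General

variable (A : ValuationSubring (AlgebraicClosure ℚ)) (N : ℕ) [NeZero N]

/-- the function `j̄ = j̄(q)` of `FRes A N` -/
def jK : FRes A N := ⟨jqModC (kRes A), jqModC_mem_full (kRes A) N⟩

@[simp] theorem coe_jK : ((jK A N : FRes A N) : LaurentSeries (kRes A)) = jqModC (kRes A) := rfl

/-- the function `j̄(q^d)` of `FRes A N`, `d ∣ N` -/
def jKd (d : ℕ) (hd : d ∣ N) : FRes A N := ⟨jAt (kRes A) d, jAt_mem_fullC (kRes A) N hd⟩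

@[simp] theorem coe_jKd (d : ℕ) (hd : d ∣ N) :
    ((jKd A N d hd : FRes A N) : LaurentSeries (kRes A)) = jAt (kRes A) d := rfl

theorem jKd_one : jKd A N 1 (one_dvd N) = jK A N := by
  apply Subtype.ext
  rw [coe_jKd, coe_jK, jAt_of_neZero, qExpand_one_apply]

/-- the value of an integer polynomial expression in the `j̄(q^d)`, `d ∣ N`, as an element of
`FRes A N` -/
def monK (P : MvPolynomial ℕ ℤ) (hP : ∀ d ∈ P.vars, d ∣ N) : FRes A N :=
  ⟨evalDiv (kRes A) P, evalDiv_mem_fullC (kRes A) N P hP⟩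

@[simp] theorem coe_monK (P : MvPolynomial ℕ ℤ) (hP : ∀ d ∈ P.vars, d ∣ N) :
    ((monK A N P hP : FRes A N) : LaurentSeries (kRes A)) = evalDiv (kRes A) P := rfl

/-- polynomial evaluation at `j̄` computed in `k((q))` -/
theorem coe_aeval_jK (p : (kRes A)[X]) :
    ((Polynomial.aeval (jK A N) p : FRes A N) : LaurentSeries (kRes A)) =
      evalJ (kRes A) (jqModC (kRes A)) p := by
  have h2 := Polynomial.aeval_algHom_apply
    (modularFunctionFieldFullC (kRes A) N).val (jK A N) p
  rw [IntermediateField.coe_val] at h2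
  exact h2.symm

theorem aeval_jK_injective :
    Function.Injective (Polynomial.aeval (R := kRes A) (jK A N)) := by
  intro p q hpq
  have h := congrArg (fun x : FRes A N => (x : LaurentSeries (kRes A))) hpq
  simp only [coe_aeval_jK] at h
  exact evalJ_injective_jqModC (kRes A) h

theorem transcendental_jK : Transcendental (kRes A) (jK A N) := by
  rw [transcendental_iff_injective]
  exact aeval_jK_injective A N

theorem aeval_jK_ne_zero {p : (kRes A)[X]} (hp : p ≠ 0) : Polynomial.aeval (jK A N) p ≠ 0 :=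
  fun h => hp (aeval_jK_injective A N (h.trans (map_zero _).symm))

/-- `j̄` has a simple pole at `q = 0` -/
theorem order_coe_jK : ((jK A N : FRes A N) : LaurentSeries (kRes A)).order = -1 :=
  order_jqModC (kRes A)

theorem coeff_coe_jK_neg_one : ((jK A N : FRes A N) : LaurentSeries (kRes A)).coeff (-1) = 1 :=
  coeff_jqModC_neg_one (kRes A)

/-- elements of `k⟮j̄⟯` are quotients of polynomials in `j̄` -/
theorem exists_aeval_div_of_mem {x : FRes A N} (hx : x ∈ (kRes A)⟮jK A N⟯) :
    ∃ p q : (kRes A)[X], q ≠ 0 ∧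
      x * Polynomial.aeval (jK A N) q = Polynomial.aeval (jK A N) p := by
  obtain ⟨p, q, rfl⟩ := (IntermediateField.mem_adjoin_simple_iff (kRes A) x).mp hx
  by_cases hq0 : q = 0
  · refine ⟨0, 1, one_ne_zero, ?_⟩
    rw [hq0, map_zero, div_zero, zero_mul]
  · exact ⟨p, q, hq0, div_mul_cancel₀ _ (aeval_jK_ne_zero A N hq0)⟩

end Fermat.Agent.S18lib.Gink
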