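/-
S18lib / Gink / CuspEmb  (helper4)

(Cusp-k), part 2: every embedding `σ` of `F = k(j(q^d) : d ∣ M)` into an extension field `Ω` of
`k((u))` which is the identity on constants and sends `j(q)` to `j(u^(M*M))` is of "Tate type":
`σ (j(q^δ)) = j(ζ_δ u^(e_δ))` for a unique vertex `(ζ_δ, e_δ)`, `δ ∣ M`, and consecutive vertices
are `p`-adjacent.
-/
import Fermat.Agent.S18lib.Gink.CuspVertex
import Fermat.Agent.S18lib.Gink.JK

set_option autoImplicit false
set_option linter.unusedSectionVars false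

noncomputable section

namespace Fermat.Agent.S18lib.Gink

open ModularCurve Fermat.Agent.S28lib Polynomial

variable {k : Type*} [Field k] (M : ℕ) [NeZero M]

/-- the element `j(q^δ)` of `F = k(j(q^d) : d ∣ M)` -/
def jF (δ : ℕ) (hδ : δ ∣ M) : ↥(modularFunctionFieldFullC k M) :=
  ⟨jAt k δ, jAt_mem_fullC k M hδ⟩

@[simp] theorem coe_jF (δ : ℕ) (hδ : δ ∣ M) :
    ((jF (k := k) M δ hδ : ↥(modularFunctionFieldFullC k M)) : LaurentSeries k) = jAt k δ := rfl

/-- the type of a vertex at the divisor `δ`: `e = e₀ a / d` with `a d = δ` -/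
def TypeAt (e₀ δ : ℕ) (v : kˣ × ℕ) : Prop := ∃ a d : ℕ, a * d = δ ∧ v.2 * d = e₀ * a

theorem TypeAt.dvd_snd {δ p : ℕ} {v : kˣ × ℕ} (h : TypeAt (M * M) δ v) (hδp : δ * p ∣ M) :
    p ∣ v.2 := by
  obtain ⟨a, d, had, hv⟩ := h
  have hM0 : M ≠ 0 := NeZero.ne M
  have hδM : δ ∣ M := (Dvd.intro _ rfl).trans hδp
  have hdM : d ∣ M := (Dvd.intro_left a had).trans hδM
  obtain ⟨c, hc⟩ := hdM
  have hd0 : d ≠ 0 := fun h => hM0 (by rw [hc, h, zero_mul])
  have h1 : v.2 = c * M * a := by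
    have : v.2 * d = (c * M * a) * d := by rw [hv]; nth_rewrite 1 [hc]; ring
    exact Nat.eq_of_mul_eq_mul_right (Nat.pos_of_ne_zero hd0) this
  rw [h1]
  exact Dvd.dvd.mul_right (Dvd.dvd.mul_left ((Dvd.intro_left δ rfl).trans hδp) c) a

theorem TypeAt.of_isUp {e₀ δ p : ℕ} {v w : kˣ × ℕ} (h : TypeAt e₀ δ v) (hw : IsUp p v w) :
    TypeAt e₀ (δ * p) w := by
  obtain ⟨a, d, had, hv⟩ := h
  refine ⟨a * p, d, by rw [← had]; ring, ?_⟩
  rw [hw.2, mul_assoc, hv]; ring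

theorem TypeAt.of_isDown {e₀ δ p : ℕ} {v w : kˣ × ℕ} (h : TypeAt e₀ δ v) (hw : IsDown p v w) :
    TypeAt e₀ (δ * p) w := by
  obtain ⟨a, d, had, hv⟩ := h
  refine ⟨a, d * p, by rw [← had]; ring, ?_⟩
  rw [← hv, ← hw.2]; ring

theorem TypeAt.of_adj {e₀ δ p : ℕ} {v w : kˣ × ℕ} (h : TypeAt e₀ δ v) (hw : Adj p v w) :
    TypeAt e₀ (δ * p) w := by
  rcases hw with hw | hw
  · exact h.of_isUp hw
  · exact h.of_isDown hw

variable {Ω : Type*} [Field Ω] (ι : LaurentSeries k →+* Ω)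

/-- an embedding of `F` into `Ω ⊇ k((u))` over `k(j)`, where `j ↦ j(u^(M*M))` -/
structure TateEmb where
  /-- the embedding -/
  σ : ↥(modularFunctionFieldFullC k M) →+* Ω
  map_const : ∀ c : k, σ (algebraMap k ↥(modularFunctionFieldFullC k M) c) = ι (HahnSeries.C c)
  map_j : σ (jF M 1 (one_dvd M)) = ι (jAt k (M * M))

namespace TateEmb

variable {M ι}
variable (T : TateEmb M ι)

/-- `σ` applied to a polynomial in `j(q^δ)` -/
theorem comp_eval₂ (δ : ℕ) (hδ : δ ∣ M) (v : kˣ × ℕ) (hv : T.σ (jF M δ hδ) = ι (jV v)) :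
    T.σ.comp (Polynomial.eval₂RingHom (algebraMap k ↥(modularFunctionFieldFullC k M)) (jF M δ hδ)) =
      ι.comp (evalJ k (jV v)) := by
  apply Polynomial.ringHom_ext
  · intro c
    simp only [RingHom.comp_apply, Polynomial.coe_eval₂RingHom, Polynomial.eval₂_C, evalJ,
      AlgHom.toRingHom_eq_coe, RingHom.coe_coe, Polynomial.aeval_C, T.map_const,
      algebraMap_laurent_eq_C]
  · simp only [RingHom.comp_apply, Polynomial.coe_eval₂RingHom, Polynomial.eval₂_X, evalJ_X, hv]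

/-- **One step.** If `σ (j(q^δ)) = j(ζ u^e)` with `p ∣ e`, then `σ (j(q^(δ p)))` is the series of a
`p`-neighbour of `(ζ, e)`. -/
theorem step [IsAlgClosed k] {p : ℕ} [NeZero p] (D : ModPolyData k p) (δ : ℕ)
    (hδp : δ * p ∣ M) (v : kˣ × ℕ) (hv0 : v.2 ≠ 0) (hpv : p ∣ v.2)
    (hv : T.σ (jF M δ ((Dvd.intro _ rfl).trans hδp)) = ι (jV v)) :
    ∃ w, Adj p v w ∧ T.σ (jF M (δ * p) hδp) = ι (jV w) := by
  have hδ : δ ∣ M := (Dvd.intro _ rfl).trans hδp
  have hδ0 : δ ≠ 0 := fun h => NeZero.ne M (by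
    rw [h] at hδ; exact Nat.eq_zero_of_zero_dvd hδ)
  refine exists_adj_of_root D ι v hv0 hpv ?_
  -- the relation `Φ_p(j(q^(δ p)), j(q^δ)) = 0` inside `F`
  set φF : k[X] →+* ↥(modularFunctionFieldFullC k M) :=
    Polynomial.eval₂RingHom (algebraMap k ↥(modularFunctionFieldFullC k M)) (jF M δ hδ) with hφF
  have hval : ((modularFunctionFieldFullC k M).val :
      ↥(modularFunctionFieldFullC k M) →+* LaurentSeries k).comp φF = evalJ k (jAt k δ) := by
    apply Polynomial.ringHom_ext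
    · intro c
      simp only [RingHom.comp_apply, hφF, Polynomial.coe_eval₂RingHom, Polynomial.eval₂_C, evalJ,
        AlgHom.toRingHom_eq_coe, RingHom.coe_coe, Polynomial.aeval_C]
      rfl
    · simp only [RingHom.comp_apply, hφF, Polynomial.coe_eval₂RingHom, Polynomial.eval₂_X,
        evalJ_X]
      rfl
  have hF : (D.Φ.map φF).eval (jF M (δ * p) hδp) = 0 := by
    apply Subtype.ext
    have h1 := eval_jAt_map_evalJ D δ hδ0
    rw [← hval, ← Polynomial.map_map, Polynomial.eval_map] at h1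
    rw [Polynomial.eval_map]
    have h2 := Polynomial.hom_eval₂ (D.Φ.map φF)
      (RingHom.id ↥(modularFunctionFieldFullC k M))
      ((modularFunctionFieldFullC k M).val :
        ↥(modularFunctionFieldFullC k M) →+* LaurentSeries k) (jF M (δ * p) hδp)
    rw [Polynomial.eval₂_id, RingHom.comp_id, Polynomial.eval_map] at h2
    exact h2.trans h1
  have h3 := congrArg T.σ hF
  rw [map_zero, Polynomial.eval_map] at h3
  have h4 := Polynomial.hom_eval₂ D.Φ φF T.σ (jF M (δ * p) hδp)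
  rw [h3, T.comp_eval₂ δ hδ v hv] at h4
  rw [Polynomial.map_map, Polynomial.eval_map]
  exact h4.symm

variable (hΦ : ∀ (p : ℕ) [NeZero p], p.Prime → p ∣ M → ModPolyData k p)

include hΦ in
/-- **Tate type.** `σ (j(q^δ)) = j(ζ u^e)` for a vertex `(ζ, e)` of type `δ`. -/
theorem exists_vertex [IsAlgClosed k] (δ : ℕ) (hδ : δ ∣ M) :
    ∃ v : kˣ × ℕ, v.2 ≠ 0 ∧ TypeAt (M * M) δ v ∧ T.σ (jF M δ hδ) = ι (jV v) := by
  induction δ using Nat.strong_induction_on with
  | _ δ ih =>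
    have hM0 : M ≠ 0 := NeZero.ne M
    have hδ0 : δ ≠ 0 := fun h => hM0 (by rw [h] at hδ; exact Nat.eq_zero_of_zero_dvd hδ)
    by_cases h1 : δ = 1
    · subst h1
      refine ⟨((1 : kˣ), M * M), Nat.mul_ne_zero hM0 hM0, ⟨1, 1, rfl, by ring⟩, ?_⟩
      rw [T.map_j, jV_one _ (Nat.mul_ne_zero hM0 hM0)]
    · obtain ⟨p, hp, hpd⟩ := Nat.exists_prime_and_dvd h1
      obtain ⟨δ', rfl⟩ := hpd
      have : NeZero p := ⟨hp.ne_zero⟩
      have hδ'0 : δ' ≠ 0 := fun h => hδ0 (by rw [h, mul_zero])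
      have hcomm : p * δ' = δ' * p := mul_comm p δ'
      have hδp : δ' * p ∣ M := hcomm ▸ hδ
      have hlt : δ' < p * δ' := by
        have := hp.two_le
        have : 0 < δ' := Nat.pos_of_ne_zero hδ'0
        nlinarith
      obtain ⟨v, hv0, hvT, hv⟩ := ih δ' hlt ((Dvd.intro _ rfl).trans hδp)
      obtain ⟨w, hw, hσw⟩ := T.step (hΦ p hp ((Dvd.intro_left δ' rfl).trans hδp)) δ' hδp v hv0
        (hvT.dvd_snd M hδp) hv
      refine ⟨w, hw.snd_ne_zero hp.ne_zero hv0, hcomm ▸ hvT.of_adj hw, ?_⟩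
      rw [← hσw]
      congr 1
      apply Subtype.ext
      rw [coe_jF, coe_jF, hcomm]

end TateEmb

end Fermat.Agent.S18lib.Gink
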