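/-
S18lib / Gink / CuspGlue  (helper6)

(Cusp-k), field glue (CK-F): for `F = k(j(q^d) : d ∣ M)` made a `RatFunc k`-algebra by `X ↦ j(q)`,
the Tate embeddings `F → k((u))` (identity on constants, `j(q) ↦ j(u^(M*M))`) form a FINITE set `S`,
and the norm of every `θ ∈ F` over `k(j)` is, under any `σ₀ ∈ S`, the product of the `σ θ`, `σ ∈ S`.
(Every embedding of `F` into an algebraic closure of `k((u))` over `k(j)` lands in `k((u))` by
`TateEmb.exists_vertex`, and Mathlib's `Algebra.norm_eq_prod_embeddings`.)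
-/
import Mathlib
import Fermat.Agent.S18lib.Gink.CuspEmb
import Fermat.Agent.S18lib.CuspK.Norm

set_option autoImplicit false
set_option linter.unusedSectionVars false

noncomputable section

namespace Fermat.Agent.S18lib.Gink

open ModularCurve Fermat.Agent.S28lib Polynomial

variable {k : Type*} [Field k] (M : ℕ) [NeZero M]

section Descent

variable {M}
variable {Ω : Type*} [Field Ω] {ι : LaurentSeries k →+* Ω}
variable (hΦ : ∀ (p : ℕ) [NeZero p], p.Prime → p ∣ M → ModPolyData k p)

include hΦ in
/-- a Tate embedding into an extension `Ω` of `k((u))` takes its values in `k((u))`. -/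
theorem TateEmb.mem_range [IsAlgClosed k] (T : TateEmb M ι)
    (θ : ↥(modularFunctionFieldFullC k M)) : T.σ θ ∈ ι.range := by
  obtain ⟨f, hf⟩ := θ
  have key : ∀ (x : LaurentSeries k) (hx : x ∈ IntermediateField.adjoin k (divisorExpansionsC k M)),
      T.σ ⟨x, hx⟩ ∈ ι.fieldRange := by
    intro x hx
    induction hx using IntermediateField.adjoin_induction with
    | mem x hx =>
      rw [divisorExpansionsC_eq] at hx
      obtain ⟨d, hd, rfl⟩ := hx
      obtain ⟨v, -, -, hv⟩ := T.exists_vertex hΦ d hd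
      have : (⟨jAt k d, IntermediateField.subset_adjoin k _
          ((divisorExpansionsC_eq k M).symm ▸ ⟨d, hd, rfl⟩)⟩ :
          ↥(modularFunctionFieldFullC k M)) = jF M d hd := rfl
      rw [this, hv]
      exact ⟨jV v, rfl⟩
    | algebraMap c =>
      have : (⟨algebraMap k (LaurentSeries k) c, IntermediateField.algebraMap_mem _ c⟩ :
          ↥(modularFunctionFieldFullC k M)) = algebraMap k ↥(modularFunctionFieldFullC k M) c := rfl
      rw [this, T.map_const]
      exact ⟨HahnSeries.C c, rfl⟩
    | add x y hx hy hx' hy' =>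
      have : (⟨x + y, add_mem hx hy⟩ : ↥(modularFunctionFieldFullC k M)) =
          (⟨x, hx⟩ : ↥(modularFunctionFieldFullC k M)) + ⟨y, hy⟩ := rfl
      rw [this, map_add]
      exact add_mem hx' hy'
    | inv x hx hx' =>
      have : (⟨x⁻¹, inv_mem hx⟩ : ↥(modularFunctionFieldFullC k M)) =
          (⟨x, hx⟩ : ↥(modularFunctionFieldFullC k M))⁻¹ := rfl
      rw [this, map_inv₀]
      exact inv_mem hx'
    | mul x y hx hy hx' hy' =>
      have : (⟨x * y, mul_mem hx hy⟩ : ↥(modularFunctionFieldFullC k M)) =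
          (⟨x, hx⟩ : ↥(modularFunctionFieldFullC k M)) * ⟨y, hy⟩ := rfl
      rw [this, map_mul]
      exact mul_mem hx' hy'
  exact key f hf

/-- the descent of a Tate embedding to `k((u))`. -/
def TateEmb.descend [IsAlgClosed k] (T : TateEmb M ι) :
    ↥(modularFunctionFieldFullC k M) →+* LaurentSeries k :=
  ((RingEquiv.ofLeftInverse (Function.leftInverse_invFun ι.injective)).symm :
      ι.range →+* LaurentSeries k).comp (T.σ.codRestrict ι.range (T.mem_range hΦ))

theorem TateEmb.map_descend [IsAlgClosed k] (T : TateEmb M ι)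
    (θ : ↥(modularFunctionFieldFullC k M)) : ι (T.descend hΦ θ) = T.σ θ := by
  have h := (RingEquiv.ofLeftInverse (Function.leftInverse_invFun ι.injective)).apply_symm_apply
    (T.σ.codRestrict ι.range (T.mem_range hΦ) θ)
  exact congrArg Subtype.val h

end Descent

section Base

/-- the standard Tate embedding `q ↦ u^(M*M)`. -/
def baseEmb : ↥(modularFunctionFieldFullC k M) →+* LaurentSeries k :=
  (qExpand k (M * M)).comp (algebraMap ↥(modularFunctionFieldFullC k M) (LaurentSeries k))

/-- Tate embeddings into `k((u))`: identity on constants, `j(q) ↦ j(u^(M*M))`. -/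
def IsTate (σ : ↥(modularFunctionFieldFullC k M) →+* LaurentSeries k) : Prop :=
  (∀ c : k, σ (algebraMap k ↥(modularFunctionFieldFullC k M) c) = HahnSeries.C c) ∧
    σ (jF M 1 (one_dvd M)) = jAt k (M * M)

theorem baseEmb_const (c : k) :
    baseEmb M (algebraMap k ↥(modularFunctionFieldFullC k M) c) = HahnSeries.C c := by
  show qExpand k (M * M) (algebraMap k (LaurentSeries k) c) = _
  rw [Kummer.algebraMap_laurent_eq_C, qExpand_C]

theorem baseEmb_jF (δ : ℕ) (hδ : δ ∣ M) : baseEmb M (jF M δ hδ) = jAt k (M * M * δ) := by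
  have hδ0 : δ ≠ 0 := fun h => NeZero.ne M (by
    rw [h] at hδ; exact Nat.eq_zero_of_zero_dvd hδ)
  have : NeZero δ := ⟨hδ0⟩
  show qExpand k (M * M) (jAt k δ) = _
  rw [jAt_of_neZero, jAt_of_neZero, qExpand_qExpand]

theorem isTate_baseEmb : IsTate M (baseEmb (k := k) M) := by
  refine ⟨baseEmb_const M, ?_⟩
  rw [baseEmb_jF, mul_one]

/-- `IsTate` is the existence of a `TateEmb` structure with `ι = id`. -/
theorem isTate_iff_exists_tateEmb
    (σ : ↥(modularFunctionFieldFullC k M) →+* LaurentSeries k) :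
    IsTate M σ ↔ ∃ T : TateEmb M (RingHom.id (LaurentSeries k)), T.σ = σ :=
  ⟨fun h => ⟨⟨σ, h.1, h.2⟩, rfl⟩, fun ⟨T, hT⟩ => hT ▸ ⟨T.map_const, T.map_j⟩⟩

variable [Algebra (RatFunc k) ↥(modularFunctionFieldFullC k M)]
  [IsScalarTower k (RatFunc k) ↥(modularFunctionFieldFullC k M)]
  (hx : algebraMap (RatFunc k) ↥(modularFunctionFieldFullC k M) RatFunc.X = jF M 1 (one_dvd M))

include hx in
/-- all Tate embeddings agree on `k(j)`. -/
theorem IsTate.comp_algebraMap {σ : ↥(modularFunctionFieldFullC k M) →+* LaurentSeries k}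
    (h : IsTate M σ) :
    σ.comp (algebraMap (RatFunc k) ↥(modularFunctionFieldFullC k M)) =
      (baseEmb M).comp (algebraMap (RatFunc k) ↥(modularFunctionFieldFullC k M)) := by
  apply IsLocalization.ringHom_ext (nonZeroDivisors k[X])
  apply Polynomial.ringHom_ext
  · intro c
    simp only [RingHom.comp_apply]
    have e : algebraMap k[X] (RatFunc k) (C c) = algebraMap k (RatFunc k) c := by
      rw [RatFunc.algebraMap_C]; rfl
    rw [e, ← IsScalarTower.algebraMap_apply k (RatFunc k), h.1, baseEmb_const]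
  · simp only [RingHom.comp_apply]
    rw [RatFunc.algebraMap_X, hx, h.2, (isTate_baseEmb M).2]

end Base

section Main

variable [IsAlgClosed k] (hΦ : ∀ (p : ℕ) [NeZero p], p.Prime → p ∣ M → ModPolyData k p)
variable [Algebra (RatFunc k) ↥(modularFunctionFieldFullC k M)]
  [IsScalarTower k (RatFunc k) ↥(modularFunctionFieldFullC k M)]
  [FiniteDimensional (RatFunc k) ↥(modularFunctionFieldFullC k M)]
  [Algebra.IsSeparable (RatFunc k) ↥(modularFunctionFieldFullC k M)]
  (hx : algebraMap (RatFunc k) ↥(modularFunctionFieldFullC k M) RatFunc.X = jF M 1 (one_dvd M))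

include hΦ hx in
/-- **Field glue.** The Tate embeddings `F → k((u))` form a finite set `S` of cardinality
`[F : k(j)]`, and the norm of `θ` over `k(j)` becomes the product of the `σ θ`, `σ ∈ S`. -/
theorem exists_finset_isTate :
    ∃ S : Finset (↥(modularFunctionFieldFullC k M) →+* LaurentSeries k),
      (∀ σ, σ ∈ S ↔ IsTate M σ) ∧
      (∀ σ₀ ∈ S, ∀ θ : ↥(modularFunctionFieldFullC k M),
        σ₀ (algebraMap (RatFunc k) ↥(modularFunctionFieldFullC k M) (Algebra.norm (RatFunc k) θ)) =
          ∏ σ ∈ S, σ θ) ∧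
      S.card = Module.finrank (RatFunc k) ↥(modularFunctionFieldFullC k M) := by
  classical
  let E := AlgebraicClosure (LaurentSeries k)
  let ι : LaurentSeries k →+* E := algebraMap (LaurentSeries k) E
  let algE : Algebra (RatFunc k) E :=
    (ι.comp ((baseEmb M).comp
      (algebraMap (RatFunc k) ↥(modularFunctionFieldFullC k M)))).toAlgebra
  have halg : ∀ r : RatFunc k, algebraMap (RatFunc k) E r =
      ι (baseEmb M (algebraMap (RatFunc k) ↥(modularFunctionFieldFullC k M) r)) := fun r => rfl
  -- the Tate embedding of an algebra homomorphism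
  let T : (↥(modularFunctionFieldFullC k M) →ₐ[RatFunc k] E) → TateEmb M ι := fun σ =>
    { σ := σ.toRingHom
      map_const := fun c => by
        show σ (algebraMap k ↥(modularFunctionFieldFullC k M) c) = ι (HahnSeries.C c)
        rw [IsScalarTower.algebraMap_apply k (RatFunc k) ↥(modularFunctionFieldFullC k M),
          σ.commutes, halg,
          ← IsScalarTower.algebraMap_apply k (RatFunc k) ↥(modularFunctionFieldFullC k M),
          baseEmb_const]
      map_j := by
        show σ (jF M 1 (one_dvd M)) = ι (jAt k (M * M))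
        rw [← hx, σ.commutes, halg, hx, (isTate_baseEmb M).2] }
  let D : (↥(modularFunctionFieldFullC k M) →ₐ[RatFunc k] E) →
      (↥(modularFunctionFieldFullC k M) →+* LaurentSeries k) := fun σ => (T σ).descend hΦ
  have hD : ∀ σ θ, ι (D σ θ) = σ θ := fun σ θ => (T σ).map_descend hΦ θ
  have hDinj : Function.Injective D := by
    intro σ τ h
    apply AlgHom.ext
    intro θ
    rw [← hD σ θ, ← hD τ θ, h]
  have hDtate : ∀ σ, IsTate M (D σ) := by
    intro σ
    refine ⟨fun c => ι.injective ?_, ι.injective ?_⟩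
    · rw [hD]; exact (T σ).map_const c
    · rw [hD]; exact (T σ).map_j
  refine ⟨Finset.univ.image D, ?_, ?_, ?_⟩
  · intro σ'
    constructor
    · intro h
      obtain ⟨σ, -, rfl⟩ := Finset.mem_image.mp h
      exact hDtate σ
    · intro h
      let σ : ↥(modularFunctionFieldFullC k M) →ₐ[RatFunc k] E :=
        { toRingHom := ι.comp σ'
          commutes' := fun r => by
            show ι (σ' (algebraMap (RatFunc k) ↥(modularFunctionFieldFullC k M) r)) =
              algebraMap (RatFunc k) E r
            rw [halg]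
            have := congrArg (fun f => f r) (h.comp_algebraMap M hx)
            simp only [RingHom.comp_apply] at this
            rw [this] }
      refine Finset.mem_image.mpr ⟨σ, Finset.mem_univ _, ?_⟩
      apply RingHom.ext
      intro θ
      apply ι.injective
      rw [hD]
      rfl
  · intro σ₀ hσ₀ θ
    obtain ⟨τ, -, rfl⟩ := Finset.mem_image.mp hσ₀
    apply ι.injective
    rw [Finset.prod_image (fun a _ b _ h => hDinj h), map_prod]
    have h1 : ι (D τ (algebraMap (RatFunc k) ↥(modularFunctionFieldFullC k M)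
        (Algebra.norm (RatFunc k) θ))) = algebraMap (RatFunc k) E (Algebra.norm (RatFunc k) θ) := by
      rw [hD, τ.commutes]
    rw [h1, Algebra.norm_eq_prod_embeddings (RatFunc k) E θ]
    exact Finset.prod_congr rfl fun σ _ => (hD σ θ).symm
  · rw [Finset.card_image_of_injective _ hDinj, Finset.card_univ, AlgHom.card]

include hΦ hx in
/-- **Field glue**, in the shape consumed by the orbit count: `S` is exactly the set of all Tate
embeddings `F → k((u))`. -/
theorem exists_finset_tateEmb :
    ∃ S : Finset (↥(modularFunctionFieldFullC k M) →+* LaurentSeries k),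
      (∀ σ, σ ∈ S ↔ ∃ T : TateEmb M (RingHom.id (LaurentSeries k)), T.σ = σ) ∧
      (∀ θ : ↥(modularFunctionFieldFullC k M), ∃ σ₀ ∈ S,
        σ₀ (algebraMap (RatFunc k) ↥(modularFunctionFieldFullC k M) (Algebra.norm (RatFunc k) θ)) =
          ∏ σ ∈ S, σ θ) ∧
      S.card = Module.finrank (RatFunc k) ↥(modularFunctionFieldFullC k M) := by
  obtain ⟨S, hS, hnorm, hcard⟩ := exists_finset_isTate M hΦ hx
  refine ⟨S, fun σ => (hS σ).trans (isTate_iff_exists_tateEmb M σ), fun θ => ?_, hcard⟩
  exact ⟨baseEmb M, (hS _).mpr (isTate_baseEmb M),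
    hnorm _ ((hS _).mpr (isTate_baseEmb M)) θ⟩

end Main

section Count

open Fermat.Agent.ProgramR.RR

theorem order_jAt (e : ℕ) (he : e ≠ 0) : (jAt k e).order = -(e : ℤ) := by
  have : NeZero e := ⟨he⟩
  rw [← jV_one e he, jV_mk, order_jS]

variable [IsAlgClosed k] (hΦ : ∀ (p : ℕ) [NeZero p], p.Prime → p ∣ M → ModPolyData k p)
variable [Algebra (RatFunc k) ↥(modularFunctionFieldFullC k M)]
  [IsScalarTower k (RatFunc k) ↥(modularFunctionFieldFullC k M)]
  [FiniteDimensional (RatFunc k) ↥(modularFunctionFieldFullC k M)]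
  [Algebra.IsSeparable (RatFunc k) ↥(modularFunctionFieldFullC k M)]
  (hx : algebraMap (RatFunc k) ↥(modularFunctionFieldFullC k M) RatFunc.X = jF M 1 (one_dvd M))
  (Binf : Type*) [CommRing Binf] [IsDedekindDomain Binf] [Algebra (Ainf k) Binf]
  [Module.Finite (Ainf k) Binf] [Module.IsTorsionFree (Ainf k) Binf]
  [Algebra Binf ↥(modularFunctionFieldFullC k M)]
  [IsFractionRing Binf ↥(modularFunctionFieldFullC k M)]
  [Algebra (Ainf k) ↥(modularFunctionFieldFullC k M)]
  [IsScalarTower (Ainf k) (RatFunc k) ↥(modularFunctionFieldFullC k M)]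
  [IsScalarTower (Ainf k) Binf ↥(modularFunctionFieldFullC k M)]
  [Algebra k Binf] [IsScalarTower k Binf ↥(modularFunctionFieldFullC k M)]

include hΦ hx Binf in
/-- **(CK-1) + (CK-F)**: the number of poles of `j` on `F = k(j(q^d) : d ∣ M)` is at most the
number of classes of Tate embeddings `F → k((u))`, for any equivalence relation on them which is
finer than "same elements of positive order" (e.g. twist orbits). -/
theorem exists_finset_isTate_card_polesOf_le :
    ∃ S : Finset (↥(modularFunctionFieldFullC k M) →+* LaurentSeries k),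
      (∀ σ, σ ∈ S ↔ ∃ T : TateEmb M (RingHom.id (LaurentSeries k)), T.σ = σ) ∧
      S.card = Module.finrank (RatFunc k) ↥(modularFunctionFieldFullC k M) ∧
      ∀ r : Setoid {σ // σ ∈ S},
        (∀ σ σ' : {σ // σ ∈ S}, r σ σ' →
          ∀ θ : ↥(modularFunctionFieldFullC k M), 0 < (σ.1 θ).order ↔ 0 < (σ'.1 θ).order) →
        Nat.card (Tame.polesOf (K := k) (RRgen.xF k ↥(modularFunctionFieldFullC k M))) ≤
          Nat.card (Quotient r) := by
  obtain ⟨S, hS, hnorm, hcard⟩ := exists_finset_isTate M hΦ hx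
  refine ⟨S, fun σ => (hS σ).trans (isTate_iff_exists_tateEmb M σ), hcard, fun r hr => ?_⟩
  have hne : S.Nonempty := ⟨baseEmb M, (hS _).mpr (isTate_baseEmb M)⟩
  obtain ⟨σ₁, hσ₁⟩ := hne
  refine CuspK.card_polesOf_le k ↥(modularFunctionFieldFullC k M) Binf S
    (fun σ hσ c => ((hS σ).mp hσ).1 c) (fun σ hσ => ?_)
    (fun θ => ⟨σ₁, hσ₁, hnorm σ₁ hσ₁ θ⟩) r hr
  have hM : M * M ≠ 0 := Nat.mul_ne_zero (NeZero.ne M) (NeZero.ne M)
  have : σ (RRgen.xF k ↥(modularFunctionFieldFullC k M)) = jAt k (M * M) := by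
    show σ (algebraMap (RatFunc k) ↥(modularFunctionFieldFullC k M) RatFunc.X) = _
    rw [hx, ((hS σ).mp hσ).2]
  rw [this, order_jAt _ hM]
  have : (0 : ℤ) < ((M * M : ℕ) : ℤ) := by exact_mod_cast Nat.pos_of_ne_zero hM
  omega

end Count

end Fermat.Agent.S18lib.Gink
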