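/-
S18lib / Gink / CuspDefs  (helper4)

(Cusp-k), shared definitions of the combinatorial part: non-backtracking `p`-paths of Tate
vertices, configurations on the divisors of `M`, and the counting functions `cnt`, `nu`.
-/
import Fermat.Agent.S18lib.Gink.CuspVertex

set_option autoImplicit false

noncomputable section

namespace Fermat.Agent.S18lib.Gink

variable {k : Type*} [Field k]

/-- the number of non-backtracking `p`-paths of length `r` with `i` steps up followed by `r - i`
steps down: `1` for `i = r`, `p^r` for `i = 0`, `(p - 1) p^(r - i - 1)` for `0 < i < r` -/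
def cnt (p r i : ℕ) : ℕ := p ^ (r - min r (2 * i)) * Nat.totient (p ^ min i (r - i))

/-- the number of cyclic sublattices `⟨a τ + b, d⟩` of type `a` (`a d = M`, `b` mod `d`,
`gcd(a, b, d) = 1`): width times `φ(gcd(a, d))` -/
def nu (M a : ℕ) : ℕ := (M / Nat.gcd M (a * a)) * Nat.totient (Nat.gcd a (M / a))

/-- a non-backtracking `p`-path `w 0, …, w r`: the first `i` steps are up, the others down -/
structure IsPath (p r i : ℕ) (w : ℕ → kˣ × ℕ) : Prop where
  up : ∀ t, t < i → IsUp p (w t) (w (t + 1))
  down : ∀ t, i ≤ t → t < r → IsDown p (w t) (w (t + 1))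
  nb : ∀ t, t + 2 ≤ r → w (t + 2) ≠ w t

/-- a configuration of Tate vertices on the divisors of `M` with base vertex `(1, e₀)` -/
structure IsConf (e₀ M : ℕ) (c : ℕ → kˣ × ℕ) : Prop where
  base : c 1 = (1, e₀)
  adj : ∀ δ p : ℕ, p.Prime → δ * p ∣ M → Adj p (c δ) (c (δ * p))
  nb : ∀ δ p : ℕ, p.Prime → δ * p * p ∣ M → c (δ * p * p) ≠ c δ

end Fermat.Agent.S18lib.Gink
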