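/-
S18lib / Gink / CuspTate  (helper4)

(Cusp-k), part 5: the vertex configuration `δ ↦ (ζ_δ, e_δ)` of a Tate embedding `σ : F → k((u))`
(`σ (j(q^δ)) = j(ζ_δ u^(e_δ))`), it is a configuration in the sense of `IsConf`, it determines `σ`,
and the action of the twists `u ↦ ξ u`, `ξ^(M*M) = 1`.
-/
import Fermat.Agent.S18lib.Gink.CuspEmb
import Fermat.Agent.S18lib.Gink.CuspDefs

set_option autoImplicit false
set_option linter.unusedSectionVars false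

noncomputable section

namespace Fermat.Agent.S18lib.Gink

open ModularCurve Fermat.Agent.S28lib Polynomial

variable {k : Type*} [Field k] {M : ℕ} [NeZero M]

namespace TateEmb

section General

variable {Ω : Type*} [Field Ω] {ι : LaurentSeries k →+* Ω}

theorem eq_of_σ_eq {T T' : TateEmb M ι} (h : T.σ = T'.σ) : T = T' := by
  cases T; cases T'
  simp only at h
  subst h
  rfl

/-- a Tate embedding is determined by its values on the generators `j(q^δ)` -/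
theorem σ_eq_of_forall {T T' : TateEmb M ι}
    (h : ∀ (δ : ℕ) (hδ : δ ∣ M), T.σ (jF M δ hδ) = T'.σ (jF M δ hδ)) : T.σ = T'.σ := by
  apply RingHom.ext
  rintro ⟨y, hy⟩
  have hy' : y ∈ IntermediateField.adjoin k (divisorExpansionsC k M) := hy
  revert hy
  induction hy' using IntermediateField.adjoin_induction with
  | mem z hz =>
    intro hy
    rw [divisorExpansionsC_eq] at hz
    obtain ⟨d, hd, rfl⟩ := hz
    exact h d hd
  | algebraMap c =>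
    intro hy
    have h1 : (⟨algebraMap k (LaurentSeries k) c, hy⟩ : ↥(modularFunctionFieldFullC k M)) =
        algebraMap k ↥(modularFunctionFieldFullC k M) c := Subtype.ext rfl
    rw [h1, T.map_const, T'.map_const]
  | add a b ha hb iha ihb =>
    intro hy
    have h1 : (⟨a + b, hy⟩ : ↥(modularFunctionFieldFullC k M)) = ⟨a, ha⟩ + ⟨b, hb⟩ := rfl
    rw [h1, map_add, map_add, iha ha, ihb hb]
  | inv a ha iha =>
    intro hy
    have h1 : (⟨a⁻¹, hy⟩ : ↥(modularFunctionFieldFullC k M)) =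
        (⟨a, ha⟩ : ↥(modularFunctionFieldFullC k M))⁻¹ := rfl
    rw [h1, map_inv₀, map_inv₀, iha ha]
  | mul a b ha hb iha ihb =>
    intro hy
    have h1 : (⟨a * b, hy⟩ : ↥(modularFunctionFieldFullC k M)) = ⟨a, ha⟩ * ⟨b, hb⟩ := rfl
    rw [h1, map_mul, map_mul, iha ha, ihb hb]

end General

variable [IsAlgClosed k]
variable (hΦ : ∀ (p : ℕ) [NeZero p], p.Prime → p ∣ M → ModPolyData k p)
variable (T : TateEmb M (RingHom.id (LaurentSeries k)))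

/-- the vertex of `σ` at the divisor `δ` (junk `(1, 0)` off the divisors of `M`) -/
def vtx (δ : ℕ) : kˣ × ℕ :=
  if hδ : δ ∣ M then Classical.choose (T.exists_vertex hΦ δ hδ) else (1, 0)

theorem vtx_of_not_dvd {δ : ℕ} (hδ : ¬ δ ∣ M) : T.vtx hΦ δ = (1, 0) := dif_neg hδ

theorem vtx_spec {δ : ℕ} (hδ : δ ∣ M) : (T.vtx hΦ δ).2 ≠ 0 ∧ TypeAt (M * M) δ (T.vtx hΦ δ) ∧
    T.σ (jF M δ hδ) = jV (T.vtx hΦ δ) := by
  rw [vtx, dif_pos hδ]
  exact Classical.choose_spec (T.exists_vertex hΦ δ hδ)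

theorem vtx_snd_ne_zero {δ : ℕ} (hδ : δ ∣ M) : (T.vtx hΦ δ).2 ≠ 0 := (T.vtx_spec hΦ hδ).1

theorem typeAt_vtx {δ : ℕ} (hδ : δ ∣ M) : TypeAt (M * M) δ (T.vtx hΦ δ) := (T.vtx_spec hΦ hδ).2.1

theorem σ_jF {δ : ℕ} (hδ : δ ∣ M) : T.σ (jF M δ hδ) = jV (T.vtx hΦ δ) := (T.vtx_spec hΦ hδ).2.2

theorem vtx_unique {δ : ℕ} (hδ : δ ∣ M) {v : kˣ × ℕ} (hv0 : v.2 ≠ 0)
    (hv : T.σ (jF M δ hδ) = jV v) : T.vtx hΦ δ = v :=
  jV_inj (T.vtx_snd_ne_zero hΦ hδ) hv0 ((T.σ_jF hΦ hδ).symm.trans hv)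

/-- the vertices of `σ` form a configuration -/
theorem isConf : IsConf (M * M) M (T.vtx hΦ) where
  base := by
    have hM0 : M ≠ 0 := NeZero.ne M
    refine T.vtx_unique hΦ (one_dvd M) (v := ((1 : kˣ), M * M)) (Nat.mul_ne_zero hM0 hM0) ?_
    rw [T.map_j, jV_one _ (Nat.mul_ne_zero hM0 hM0)]
    rfl
  adj δ p hp hδp := by
    have : NeZero p := ⟨hp.ne_zero⟩
    have hδ : δ ∣ M := (Dvd.intro _ rfl).trans hδp
    obtain ⟨w, hw, hσw⟩ := T.step (hΦ p hp ((Dvd.intro_left δ rfl).trans hδp)) δ hδp (T.vtx hΦ δ)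
      (T.vtx_snd_ne_zero hΦ hδ) ((T.typeAt_vtx hΦ hδ).dvd_snd M hδp) (T.σ_jF hΦ hδ)
    have hw0 : w.2 ≠ 0 := hw.snd_ne_zero hp.ne_zero (T.vtx_snd_ne_zero hΦ hδ)
    rw [T.vtx_unique hΦ hδp hw0 hσw]
    exact hw
  nb δ p hp hδpp h := by
    have hδ : δ ∣ M := (show δ ∣ δ * p * p from ⟨p * p, by ring⟩).trans hδpp
    have hM0 : M ≠ 0 := NeZero.ne M
    have hδ0 : δ ≠ 0 := ne_zero_of_dvd_ne_zero hM0 hδ
    have h1 : T.σ (jF M (δ * p * p) hδpp) = T.σ (jF M δ hδ) := by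
      rw [T.σ_jF hΦ hδpp, T.σ_jF hΦ hδ, h]
    have h2 := T.σ.injective h1
    have h3 : jAt k (δ * p * p) = jAt k δ := congrArg Subtype.val h2
    have h4 := Chain.jAt_inj k (Nat.mul_ne_zero (Nat.mul_ne_zero hδ0 hp.ne_zero) hp.ne_zero) hδ0 h3
    have h5 : δ * 1 < δ * (p * p) := by
      refine Nat.mul_lt_mul_of_pos_left ?_ (Nat.pos_of_ne_zero hδ0)
      have h6 := hp.two_le
      calc 1 < 2 * 2 := by norm_num
        _ ≤ p * p := Nat.mul_le_mul h6 h6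
    rw [mul_one, ← mul_assoc, h4] at h5
    exact lt_irrefl _ h5

/-- `σ` is determined by its configuration -/
theorem eq_of_vtx_eq {T T' : TateEmb M (RingHom.id (LaurentSeries k))}
    (h : ∀ δ : ℕ, δ ∣ M → T.vtx hΦ δ = T'.vtx hΦ δ) : T = T' := by
  apply eq_of_σ_eq
  apply σ_eq_of_forall
  intro δ hδ
  rw [T.σ_jF hΦ hδ, T'.σ_jF hΦ hδ, h δ hδ]

/-- the exponent at `M` has the form `M a a` for a divisor `a` of `M` -/
theorem exists_snd_vtx_eq : ∃ a : ℕ, a ∣ M ∧ (T.vtx hΦ M).2 = M * a * a := by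
  obtain ⟨a, d, had, hv⟩ := T.typeAt_vtx hΦ (dvd_refl M)
  refine ⟨a, Dvd.intro _ had, ?_⟩
  have hM0 : M ≠ 0 := NeZero.ne M
  have hd0 : d ≠ 0 := fun h => hM0 (by rw [← had, h, mul_zero])
  have h1 : (T.vtx hΦ M).2 * d = (M * a * a) * d := by
    rw [hv]; nth_rewrite 2 [← had]; ring
  exact Nat.eq_of_mul_eq_mul_right (Nat.pos_of_ne_zero hd0) h1

/-- the twist of a Tate embedding by `u ↦ ξ u`, `ξ^(M*M) = 1` -/
def twistEmb (ξ : kˣ) (hξ : ξ ^ (M * M) = 1) : TateEmb M (RingHom.id (LaurentSeries k)) where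
  σ := (twist ξ).comp T.σ
  map_const c := by
    rw [RingHom.comp_apply, T.map_const]
    exact twist_C ξ c
  map_j := by
    rw [RingHom.comp_apply, T.map_j]
    exact Chain.twist_jAt k ξ _ hξ

theorem twistEmb_σ (ξ : kˣ) (hξ : ξ ^ (M * M) = 1) :
    (T.twistEmb ξ hξ).σ = (twist ξ).comp T.σ := rfl

theorem vtx_twistEmb (ξ : kˣ) (hξ : ξ ^ (M * M) = 1) {δ : ℕ} (hδ : δ ∣ M) :
    (T.twistEmb ξ hξ).vtx hΦ δ = (ξ ^ (T.vtx hΦ δ).2 * (T.vtx hΦ δ).1, (T.vtx hΦ δ).2) := by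
  refine (T.twistEmb ξ hξ).vtx_unique hΦ hδ (T.vtx_snd_ne_zero hΦ hδ) ?_
  rw [twistEmb_σ, RingHom.comp_apply, T.σ_jF hΦ hδ, twist_jV]

end TateEmb

end Fermat.Agent.S18lib.Gink
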