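/-
S18lib / Gink / CuspOrbit  (helper4)

(Cusp-k), part 6: the set of all Tate embeddings `F → k((u))`, modulo any equivalence relation
containing the twists `u ↦ ξ u` (`ξ^(M*M) = 1`), has at most `cuspCount M` classes: the embeddings
of type `a` are at most `nu M a = w(a) φ(gcd(a, M/a))` by `card_conf_le`, and each class of type `a`
contains the `w(a) = M / gcd(M, a²)` distinct twists of any of its members.
-/
import Fermat.Agent.S18lib.Gink.CuspTate
import Fermat.Agent.S18lib.Gink.CuspCount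
import Fermat.Prelude.Def_ModularCurve_GenusNumerics

set_option autoImplicit false
set_option linter.unusedSectionVars false

noncomputable section

namespace Fermat.Agent.S18lib.Gink

open ModularCurve Fermat.Agent.S28lib Polynomial

/-- arithmetic: `M ∣ t b → M / gcd(M, b) ∣ t` -/
theorem div_gcd_dvd_of_dvd_mul {M b t : ℕ} (hM : M ≠ 0) (h : M ∣ t * b) :
    M / Nat.gcd M b ∣ t := by
  have hg : 0 < Nat.gcd M b := Nat.gcd_pos_of_pos_left _ (Nat.pos_of_ne_zero hM)
  have hcop : Nat.Coprime (M / Nat.gcd M b) (b / Nat.gcd M b) := Nat.coprime_div_gcd_div_gcd hg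
  obtain ⟨w, hw⟩ := Nat.gcd_dvd_left M b
  obtain ⟨b', hb'⟩ := Nat.gcd_dvd_right M b
  have h1 : M / Nat.gcd M b = w := by
    nth_rewrite 1 [hw]; exact Nat.mul_div_cancel_left w hg
  have h2 : b / Nat.gcd M b = b' := by
    nth_rewrite 1 [hb']; exact Nat.mul_div_cancel_left b' hg
  rw [h1, h2] at hcop
  rw [h1]
  have h3 : Nat.gcd M b * w ∣ Nat.gcd M b * (t * b') := by
    have h4 : Nat.gcd M b * (t * b') = t * b := by
      calc Nat.gcd M b * (t * b') = t * (Nat.gcd M b * b') := by ring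
        _ = t * b := by rw [← hb']
    rw [h4, ← hw]; exact h
  exact hcop.dvd_of_dvd_mul_right (Nat.dvd_of_mul_dvd_mul_left hg h3)

variable {k : Type*} [Field k]

/-- the twists by `ξ^m`, `m < M / gcd(M, a²)`, act differently on a vertex of exponent `M a²` -/
theorem eq_of_pow_pow_eq {M a : ℕ} (hM : M ≠ 0) {ξ : kˣ} (hξ : IsPrimitiveRoot ξ (M * M))
    {m m' : ℕ} (hm : m < M / Nat.gcd M (a * a)) (hm' : m' < M / Nat.gcd M (a * a))
    (h : (ξ ^ m) ^ (M * a * a) = (ξ ^ m') ^ (M * a * a)) : m = m' := by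
  have key : ∀ {m m' : ℕ}, m < M / Nat.gcd M (a * a) → m' ≤ m →
      (ξ ^ m) ^ (M * a * a) = (ξ ^ m') ^ (M * a * a) → m = m' := by
    intro m m' hm hle h
    rw [← pow_mul, ← pow_mul, pow_eq_pow_iff_modEq, ← hξ.eq_orderOf] at h
    have h1 : M * M ∣ m * (M * a * a) - m' * (M * a * a) :=
      (Nat.modEq_iff_dvd' (Nat.mul_le_mul_right _ hle)).mp h.symm
    have h2 : m * (M * a * a) - m' * (M * a * a) = M * ((m - m') * (a * a)) := by
      rw [← Nat.sub_mul]; ring
    rw [h2] at h1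
    have h3 : M ∣ (m - m') * (a * a) := Nat.dvd_of_mul_dvd_mul_left (Nat.pos_of_ne_zero hM) h1
    have h4 := div_gcd_dvd_of_dvd_mul hM h3
    have h5 : m - m' = 0 := Nat.eq_zero_of_dvd_of_lt h4 (by omega)
    omega
  rcases le_total m' m with hle | hle
  · exact key hm hle h
  · exact (key hm' hle h.symm).symm

variable [IsAlgClosed k] {M : ℕ} [NeZero M]

/-- **Classes of Tate embeddings.** -/
theorem card_quotient_le (hM : (M : k) ≠ 0)
    (hΦ : ∀ (p : ℕ) [NeZero p], p.Prime → p ∣ M → ModPolyData k p)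
    (S : Finset (↥(modularFunctionFieldFullC k M) →+* LaurentSeries k))
    (hS : ∀ σ, σ ∈ S ↔ ∃ T : TateEmb M (RingHom.id (LaurentSeries k)), T.σ = σ)
    (r : Setoid {σ // σ ∈ S})
    (hr : ∀ σ σ' : {σ // σ ∈ S},
      (∃ ξ : kˣ, ξ ^ (M * M) = 1 ∧ σ'.1 = (twist ξ).comp σ.1) → r σ σ') :
    Nat.card (Quotient r) ≤ cuspCount M := by
  classical
  have hM0 : M ≠ 0 := NeZero.ne M
  -- choose `T` for each `σ ∈ S`
  have hT : ∀ σ : {σ // σ ∈ S}, ∃ T : TateEmb M (RingHom.id (LaurentSeries k)), T.σ = σ.1 :=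
    fun σ => (hS σ.1).mp σ.2
  choose toT htoT using hT
  have hconf_inj : Function.Injective (fun σ : {σ // σ ∈ S} => (toT σ).vtx hΦ) := by
    intro σ σ' h
    have h1 : toT σ = toT σ' := TateEmb.eq_of_vtx_eq hΦ (fun δ _ => congrFun h δ)
    apply Subtype.ext
    rw [← htoT σ, ← htoT σ', h1]
  -- a primitive root of unity
  obtain ⟨ξ₀, hξ₀⟩ : ∃ ξ : kˣ, IsPrimitiveRoot ξ (M * M) := by
    have : NeZero ((M * M : ℕ) : k) := ⟨by push_cast; exact mul_ne_zero hM hM⟩
    obtain ⟨ζ, hζ⟩ := HasEnoughRootsOfUnity.exists_primitiveRoot k (M * M)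
    obtain ⟨ξ, rfl⟩ := hζ.isUnit (Nat.mul_ne_zero hM0 hM0)
    exact ⟨ξ, IsPrimitiveRoot.coe_units_iff.mp hζ⟩
  have hpow : ∀ m : ℕ, (ξ₀ ^ m) ^ (M * M) = 1 := fun m => by
    rw [← pow_mul, mul_comm, pow_mul, hξ₀.pow_eq_one, one_pow]
  -- the pieces by type
  set Ua : ℕ → Finset {σ // σ ∈ S} := fun a =>
    Finset.univ.filter (fun σ => ((toT σ).vtx hΦ M).2 = M * a * a) with hUa
  have hcover : (Finset.univ : Finset (Quotient r)) ⊆
      M.divisors.biUnion (fun a => (Ua a).image (Quotient.mk r)) := by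
    intro q _
    induction q using Quotient.inductionOn with
    | _ σ =>
      obtain ⟨a, ha, hea⟩ := (toT σ).exists_snd_vtx_eq hΦ
      rw [Finset.mem_biUnion]
      refine ⟨a, Nat.mem_divisors.mpr ⟨ha, hM0⟩, Finset.mem_image.mpr ⟨σ, ?_, rfl⟩⟩
      rw [hUa, Finset.mem_filter]
      exact ⟨Finset.mem_univ _, hea⟩
  rw [Nat.card_eq_fintype_card, ← Finset.card_univ]
  refine (Finset.card_le_card hcover).trans (Finset.card_biUnion_le.trans ?_)
  rw [cuspCount]
  refine Finset.sum_le_sum (fun a ha => ?_)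
  have haM : a ∣ M := (Nat.mem_divisors.mp ha).1
  have ha0 : a ≠ 0 := ne_zero_of_dvd_ne_zero hM0 haM
  have hw : 0 < M / Nat.gcd M (a * a) :=
    Nat.div_pos (Nat.le_of_dvd (Nat.pos_of_ne_zero hM0) (Nat.gcd_dvd_left _ _))
      (Nat.gcd_pos_of_pos_left _ (Nat.pos_of_ne_zero hM0))
  -- upper bound: the count of configurations
  have hupper : (Ua a).card ≤ nu M a := by
    rw [← Finset.card_image_of_injective _ hconf_inj]
    refine card_conf_le (k := k) (Nat.mul_ne_zero hM0 hM0) M hM0 a haM _ ?_ ?_ ?_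
    · intro c hc
      obtain ⟨σ, -, rfl⟩ := Finset.mem_image.mp hc
      exact (toT σ).isConf hΦ
    · intro c hc
      obtain ⟨σ, hσ, rfl⟩ := Finset.mem_image.mp hc
      have h1 : ((toT σ).vtx hΦ M).2 = M * a * a := by
        rw [hUa, Finset.mem_filter] at hσ
        exact hσ.2
      show ((toT σ).vtx hΦ M).2 * (M / a) = M * M * a
      rw [h1]
      have h2 : a * (M / a) = M := Nat.mul_div_cancel' haM
      calc M * a * a * (M / a) = M * a * (a * (M / a)) := by ring
        _ = M * M * a := by rw [h2]; ring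
    · intro c hc c' hc' h
      obtain ⟨σ, -, rfl⟩ := Finset.mem_image.mp hc
      obtain ⟨σ', -, rfl⟩ := Finset.mem_image.mp hc'
      funext δ
      by_cases hδ : δ ∣ M
      · exact h δ hδ
      · show (toT σ).vtx hΦ δ = (toT σ').vtx hΦ δ
        rw [(toT σ).vtx_of_not_dvd hΦ hδ, (toT σ').vtx_of_not_dvd hΦ hδ]
  -- lower bound: every class of type `a` contains `w(a)` twists
  have hlower : M / Nat.gcd M (a * a) * ((Ua a).image (Quotient.mk r)).card ≤ (Ua a).card := by
    refine Finset.mul_card_image_le_card (Ua a) _ ?_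
    intro q hq
    obtain ⟨σ, hσ, rfl⟩ := Finset.mem_image.mp hq
    have hσe : ((toT σ).vtx hΦ M).2 = M * a * a := by
      rw [hUa, Finset.mem_filter] at hσ
      exact hσ.2
    -- the orbit map
    set orb : ℕ → {σ // σ ∈ S} := fun m =>
      ⟨((toT σ).twistEmb (ξ₀ ^ m) (hpow m)).σ, (hS _).mpr ⟨_, rfl⟩⟩ with horb
    have htoT_orb : ∀ m, toT (orb m) = (toT σ).twistEmb (ξ₀ ^ m) (hpow m) := fun m =>
      TateEmb.eq_of_σ_eq (htoT (orb m))
    have hvtx_orb : ∀ m, (toT (orb m)).vtx hΦ M =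
        ((ξ₀ ^ m) ^ (M * a * a) * ((toT σ).vtx hΦ M).1, M * a * a) := by
      intro m
      rw [htoT_orb m, (toT σ).vtx_twistEmb hΦ (ξ₀ ^ m) (hpow m) (dvd_refl M), hσe]
    calc M / Nat.gcd M (a * a) = (Finset.range (M / Nat.gcd M (a * a))).card :=
          (Finset.card_range _).symm
      _ ≤ ((Ua a).filter (fun x => Quotient.mk r x = Quotient.mk r σ)).card := by
          refine Finset.card_le_card_of_injOn orb ?_ ?_
          · intro m _
            rw [Finset.mem_coe, Finset.mem_filter]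
            refine ⟨?_, ?_⟩
            · rw [hUa, Finset.mem_filter]
              refine ⟨Finset.mem_univ _, ?_⟩
              rw [hvtx_orb m]
            · refine (Quotient.eq.mpr ?_).symm
              refine hr σ (orb m) ⟨ξ₀ ^ m, hpow m, ?_⟩
              show ((toT σ).twistEmb (ξ₀ ^ m) (hpow m)).σ = (twist (ξ₀ ^ m)).comp σ.1
              rw [TateEmb.twistEmb_σ, htoT σ]
          · intro m hm m' hm' hmm'
            rw [Finset.coe_range, Set.mem_Iio] at hm hm'
            have h1 := congrArg (fun x => ((toT x).vtx hΦ M).1) hmm'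
            simp only [hvtx_orb] at h1
            exact eq_of_pow_pow_eq hM0 hξ₀ hm hm' (mul_right_cancel h1)
  have h3 := hlower.trans hupper
  rw [nu] at h3
  exact Nat.le_of_mul_le_mul_left h3 hw

end Fermat.Agent.S18lib.Gink
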