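/-
S18lib / Gink / Relation  (helper4)

Upper bound for the degree of `FRes A N` over `k(j̄)`: any `n > ψ(N)` elements of `FRes A N` satisfy a
nontrivial linear relation with coefficients in `k[j̄]`.  Proof: write the elements as `ā_i / b̄` with
`a_i, b` integral modular functions, take a relation `∑ Q_i(j) a_i = 0` in characteristic zero
(degree `ψ(N)` of `FBar N` over `Q̄(j)`), scale it to a primitive relation over the valuation ring
`A`, and reduce.
-/
import Fermat.Agent.S18lib.Gink.JK
import Fermat.Agent.S18lib.V.Lift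
import Fermat.Agent.S18lib.RRlat.Basic
import Fermat.Agent.ProgramR.BarField.Degree

set_option autoImplicit false
set_option linter.unusedSectionVars false

noncomputable section

namespace Fermat.Agent.S18lib.Gink

open ModularCurve Fermat.Agent.S28lib Polynomial Fermat.Agent.S18lib.V

variable (N : ℕ) [NeZero N]

/-- characteristic zero: `n > ψ(N)` elements of `FBar N` are linearly dependent over `Q̄[j]` -/
theorem exists_poly_relation_Qbar {n : ℕ} (hn : dedekindPsi N < n)
    (y : Fin n → LaurentSeries (AlgebraicClosure ℚ)) (hy : ∀ i, y i ∈ modularFunctionFieldBar N) :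
    ∃ Q : Fin n → (AlgebraicClosure ℚ)[X], (∃ i, Q i ≠ 0) ∧
      ∑ i, evalJ (AlgebraicClosure ℚ) (jqModC (AlgebraicClosure ℚ)) (Q i) * y i = 0 := by
  by_contra hcon
  push Not at hcon
  have hle : n ≤ dedekindPsi N := by
    refine Fermat.Agent.ProgramR.BarField.card_le_dedekindPsi N
      Fermat.Agent.ProgramR.BarField.qbarEmb y hy ?_
    intro p hp
    by_contra hne
    push Not at hne
    apply hcon p hne
    rw [← hp]
    refine Finset.sum_congr rfl fun i _ => ?_
    congr 1
    have h1 : coeffEmb (AlgebraicClosure ℚ) jq = jqModC (AlgebraicClosure ℚ) := by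
      rw [coeffEmb, ← jqModC_rat, coeffMap_jqModC]
    rw [h1]
    rfl
  omega

variable (A : ValuationSubring (AlgebraicClosure ℚ))

/-- scaling a nonzero family of polynomials over `Q̄` to a primitive family over `A` -/
theorem exists_primitive_scaling {n : ℕ} (Q : Fin n → (AlgebraicClosure ℚ)[X])
    (hQ : ∃ i, Q i ≠ 0) :
    ∃ (c : AlgebraicClosure ℚ) (R : Fin n → (A : Type)[X]), c ≠ 0 ∧
      (∀ i, (R i).map A.subtype = C c * Q i) ∧ ∃ i m, (R i).coeff m = 1 := by
  classical
  set D := Finset.univ.sup (fun i => (Q i).natDegree) with hD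
  have hDle : ∀ i, (Q i).natDegree ≤ D := fun i =>
    Finset.le_sup (f := fun i => (Q i).natDegree) (Finset.mem_univ i)
  let cf : Fin n × Fin (D + 1) → AlgebraicClosure ℚ := fun im => (Q im.1).coeff im.2
  have hcf : ∃ im, cf im ≠ 0 := by
    obtain ⟨i, hi⟩ := hQ
    exact ⟨(i, ⟨(Q i).natDegree, Nat.lt_succ_of_le (hDle i)⟩),
      Polynomial.leadingCoeff_ne_zero.mpr hi⟩
  obtain ⟨⟨i0, m0⟩, h0, hall⟩ := RRlat.exists_forall_div_mem (A := A) cf hcf
  set c0 := cf (i0, m0) with hc0
  have hmem : ∀ i m, (Q i).coeff m / c0 ∈ A := by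
    intro i m
    by_cases hm : m < D + 1
    · exact hall (i, ⟨m, hm⟩)
    · have h1 : (Q i).coeff m = 0 :=
        Polynomial.coeff_eq_zero_of_natDegree_lt (lt_of_le_of_lt (hDle i) (by omega))
      rw [h1, zero_div]
      exact zero_mem _
  have hlift : ∀ i, C c0⁻¹ * Q i ∈ Polynomial.lifts A.subtype := by
    intro i
    rw [Polynomial.lifts_iff_coeff_lifts]
    intro m
    rw [Polynomial.coeff_C_mul]
    have h1 := hmem i m
    rw [div_eq_inv_mul] at h1
    exact ⟨⟨_, h1⟩, rfl⟩
  choose R hR using fun i => (Polynomial.mem_lifts _).mp (hlift i)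
  refine ⟨c0⁻¹, R, inv_ne_zero h0, hR, i0, m0, ?_⟩
  apply Subtype.ext
  have h1 := congrArg (fun p => p.coeff (m0 : ℕ)) (hR i0)
  simp only [Polynomial.coeff_map, Polynomial.coeff_C_mul] at h1
  have h2 : (Q i0).coeff (m0 : ℕ) = c0 := rfl
  rw [h2, inv_mul_cancel₀ h0] at h1
  exact h1

/-- **Upper bound.** Any `n > ψ(N)` elements of `FRes A N` satisfy a nontrivial linear relation
with coefficients in `k[j̄]`. -/
theorem exists_poly_relation_kRes {n : ℕ} (hn : dedekindPsi N < n)
    (η : Fin n → LaurentSeries (kRes A))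
    (hη : ∀ i, η i ∈ modularFunctionFieldFullC (kRes A) N) :
    ∃ P : Fin n → (kRes A)[X], (∃ i, P i ≠ 0) ∧
      ∑ i, evalJ (kRes A) (jqModC (kRes A)) (P i) * η i = 0 := by
  classical
  choose a ha b hb hb0 hab using fun i => exists_toK_div_eq (hη i)
  set bb := ∏ i, b i with hbb
  have hbb0 : toK A bb ≠ 0 := by
    rw [hbb, map_prod]
    exact Finset.prod_ne_zero_iff.mpr (fun i _ => hb0 i)
  set c : Fin n → LaurentSeries A := fun i => a i * ∏ j ∈ Finset.univ.erase i, b j with hc_def
  have hc : ∀ i, c i ∈ IntRing N A := fun i => mul_mem (ha i) (prod_mem fun j _ => hb j)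
  have hηc : ∀ i, η i * toK A bb = toK A (c i) := by
    intro i
    rw [hbb, ← Finset.mul_prod_erase Finset.univ b (Finset.mem_univ i), map_mul, ← mul_assoc, hab,
      ← map_mul]
  obtain ⟨Q, hQ, hrel⟩ := exists_poly_relation_Qbar N hn (fun i => toL A (c i))
    (fun i => (hc i).1)
  obtain ⟨c0, R, hc0, hR, i0, m0, hcoef⟩ := exists_primitive_scaling A Q hQ
  have hrelA : ∑ i, evalJ A (jqModC A) (R i) * c i = 0 := by
    apply toL_injective
    rw [map_sum, map_zero]
    have h1 : ∀ i, toL A (evalJ A (jqModC A) (R i) * c i) =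
        evalJ (AlgebraicClosure ℚ) (jqModC (AlgebraicClosure ℚ)) (C c0) *
          (evalJ (AlgebraicClosure ℚ) (jqModC (AlgebraicClosure ℚ)) (Q i) * toL A (c i)) := by
      intro i
      rw [map_mul, toL, coeffMap_evalJ, coeffMap_jqModC, hR, map_mul, mul_assoc]
    simp only [h1]
    rw [← Finset.mul_sum, hrel, mul_zero]
  refine ⟨fun i => (R i).map (IsLocalRing.residue A), ⟨i0, ?_⟩, ?_⟩
  · intro h
    have h1 := congrArg (fun p => p.coeff m0) h
    simp only [Polynomial.coeff_map, hcoef, map_one, Polynomial.coeff_zero] at h1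
    exact one_ne_zero h1
  · have h1 := congrArg (toK A) hrelA
    rw [map_sum, map_zero] at h1
    have h2 : ∀ i, toK A (evalJ A (jqModC A) (R i) * c i) =
        evalJ (kRes A) (jqModC (kRes A)) ((R i).map (IsLocalRing.residue A)) * η i *
          toK A bb := by
      intro i
      have h3 : toK A (evalJ A (jqModC A) (R i)) =
          evalJ (kRes A) (jqModC (kRes A)) ((R i).map (IsLocalRing.residue A)) := by
        rw [toK, coeffMap_evalJ, coeffMap_jqModC]
      rw [map_mul, h3, mul_assoc, hηc]
    simp only [h2] at h1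
    rw [← Finset.sum_mul] at h1
    exact (mul_eq_zero.mp h1).resolve_right hbb0

end Fermat.Agent.S18lib.Gink
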