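/-
S18lib / Gink / Degree  (helper4)

`FRes A N` is finite over `k(j̄)` of degree `≤ ψ(N)` (reduction of characteristic-zero relations),
and of degree exactly `ψ(N)` when `ℓ ∤ N` (the `ψ(N)` independent monomials of `S28lib`).
-/
import Fermat.Agent.S18lib.Gink.Relation

set_option autoImplicit false
set_option linter.unusedSectionVars false

noncomputable section

namespace Fermat.Agent.S18lib.Gink

open ModularCurve Fermat.Agent.S28lib Polynomial IntermediateField

variable (A : ValuationSubring (AlgebraicClosure ℚ)) (N : ℕ) [NeZero N]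

theorem aeval_jK_mem (p : (kRes A)[X]) : Polynomial.aeval (jK A N) p ∈ (kRes A)⟮jK A N⟯ :=
  IntermediateField.algebra_adjoin_le_adjoin _ _
    (Polynomial.aeval_mem_adjoin_singleton (kRes A) (jK A N))

/-- a `k[j̄]`-linear combination computed in `k((q))` -/
theorem coe_sum_aeval_mul {ι : Type*} [Fintype ι] (P : ι → (kRes A)[X]) (m : ι → FRes A N) :
    ((∑ i, Polynomial.aeval (jK A N) (P i) * m i : FRes A N) : LaurentSeries (kRes A)) =
      ∑ i, evalJ (kRes A) (jqModC (kRes A)) (P i) * ((m i : FRes A N) : LaurentSeries (kRes A)) := by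
  have h1 : ∀ x : FRes A N, ((x : FRes A N) : LaurentSeries (kRes A)) =
      (modularFunctionFieldFullC (kRes A) N).val x := fun x => rfl
  rw [h1, map_sum]
  refine Finset.sum_congr rfl fun i _ => ?_
  rw [map_mul, ← h1, ← h1, coe_aeval_jK]

/-- polynomial independence over `k[j̄]` implies linear independence over `k(j̄)` -/
theorem linearIndependent_of_poly {ι : Type*} [Fintype ι] (m : ι → FRes A N)
    (h : ∀ P : ι → (kRes A)[X], ∑ i, Polynomial.aeval (jK A N) (P i) * m i = 0 → ∀ i, P i = 0) :
    LinearIndependent (kRes A)⟮jK A N⟯ m := by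
  classical
  rw [Fintype.linearIndependent_iff]
  intro g hg
  have hex : ∀ i, ∃ p q : (kRes A)[X], q ≠ 0 ∧
      (g i : FRes A N) * Polynomial.aeval (jK A N) q = Polynomial.aeval (jK A N) p :=
    fun i => exists_aeval_div_of_mem A N (g i).2
  choose p q hq hpq using hex
  set qq := ∏ i, q i with hqq
  have hqq0 : Polynomial.aeval (jK A N) qq ≠ 0 :=
    aeval_jK_ne_zero A N (Finset.prod_ne_zero_iff.mpr fun i _ => hq i)
  have hrel : ∑ i, Polynomial.aeval (jK A N) (p i * ∏ j ∈ Finset.univ.erase i, q j) * m i = 0 := by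
    have h1 : ∀ i, Polynomial.aeval (jK A N) (p i * ∏ j ∈ Finset.univ.erase i, q j) * m i =
        Polynomial.aeval (jK A N) qq * (g i • m i) := by
      intro i
      rw [hqq, ← Finset.mul_prod_erase Finset.univ q (Finset.mem_univ i), map_mul, map_mul, ← hpq,
        Algebra.smul_def, IntermediateField.algebraMap_apply]
      ring
    simp only [h1]
    rw [← Finset.mul_sum, hg, mul_zero]
  have h0 := h _ hrel
  intro i
  have h1 : p i = 0 := by
    have h2 := h0 i
    rcases mul_eq_zero.mp h2 with h3 | h3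
    · exact h3
    · exact absurd h3 (Finset.prod_ne_zero_iff.mpr fun j _ => hq j)
  have h2 := hpq i
  rw [h1, map_zero] at h2
  have h3 : (g i : FRes A N) = 0 :=
    (mul_eq_zero.mp h2).resolve_right (aeval_jK_ne_zero A N (hq i))
  exact Subtype.ext h3

/-- linear independence over `k(j̄)` implies polynomial independence over `k[j̄]` -/
theorem poly_of_linearIndependent {ι : Type*} [Fintype ι] (m : ι → FRes A N)
    (h : LinearIndependent (kRes A)⟮jK A N⟯ m) (P : ι → (kRes A)[X])
    (hP : ∑ i, Polynomial.aeval (jK A N) (P i) * m i = 0) : ∀ i, P i = 0 := by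
  intro i
  have h1 := Fintype.linearIndependent_iff.mp h
    (fun i => ⟨Polynomial.aeval (jK A N) (P i), aeval_jK_mem A N (P i)⟩)
    (by
      rw [← hP]
      refine Finset.sum_congr rfl fun i _ => ?_
      rw [Algebra.smul_def, IntermediateField.algebraMap_apply]) i
  have h2 : Polynomial.aeval (jK A N) (P i) = 0 := congrArg Subtype.val h1
  exact aeval_jK_injective A N (h2.trans (map_zero _).symm)

/-- **Upper bound** in linear-algebra form. -/
theorem card_le_of_linearIndependent {n : ℕ} (m : Fin n → FRes A N)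
    (h : LinearIndependent (kRes A)⟮jK A N⟯ m) : n ≤ dedekindPsi N := by
  by_contra hlt
  push Not at hlt
  obtain ⟨P, ⟨i0, hi0⟩, hrel⟩ := exists_poly_relation_kRes N A hlt
    (fun i => ((m i : FRes A N) : LaurentSeries (kRes A))) (fun i => (m i).2)
  apply hi0
  refine poly_of_linearIndependent A N m h P ?_ i0
  apply Subtype.ext
  rw [coe_sum_aeval_mul, hrel]
  rfl

theorem rank_jK_le : Module.rank (kRes A)⟮jK A N⟯ (FRes A N) ≤ dedekindPsi N := by
  classical
  apply rank_le
  intro s hs
  have h1 : LinearIndependent (kRes A)⟮jK A N⟯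
      (fun i : Fin s.card => ((s.equivFin.symm i : s) : FRes A N)) :=
    hs.comp _ s.equivFin.symm.injective
  exact card_le_of_linearIndependent A N _ h1

instance finiteDimensional_jK : FiniteDimensional (kRes A)⟮jK A N⟯ (FRes A N) := by
  rw [FiniteDimensional, ← Module.rank_lt_aleph0_iff]
  exact lt_of_le_of_lt (rank_jK_le A N) Cardinal.natCast_lt_aleph0

theorem finrank_jK_le : Module.finrank (kRes A)⟮jK A N⟯ (FRes A N) ≤ dedekindPsi N :=
  Module.finrank_le_of_rank_le (rank_jK_le A N)

variable {ℓ : ℕ} [Fact ℓ.Prime]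

/-- **Degree.** `[FRes A N : k(j̄)] = ψ(N)` for `ℓ ∤ N`. -/
theorem finrank_jK (hA : A.LiesOverPrime ℓ) (hℓN : ¬ ℓ ∣ N) :
    Module.finrank (kRes A)⟮jK A N⟯ (FRes A N) = dedekindPsi N := by
  refine le_antisymm (finrank_jK_le A N) ?_
  obtain ⟨x, hx, hind⟩ := exists_independent_monomials_kRes A hA N hℓN
  have hli : LinearIndependent (kRes A)⟮jK A N⟯ (fun i => monK A N (x i) (hx i)) := by
    refine linearIndependent_of_poly A N _ fun P hP => hind P ?_
    have h0 := congrArg (fun y : FRes A N => (y : LaurentSeries (kRes A))) hP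
    rw [coe_sum_aeval_mul] at h0
    exact h0
  have := hli.fintype_card_le_finrank
  rwa [Fintype.card_fin] at this

end Fermat.Agent.S18lib.Gink
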