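/-
S18lib / Gink / Sep  (helper4)

`FRes A N` is a separable extension of `k(j̄)` for `ℓ ∤ N`: every generator `j̄(q^d)`, `d ∣ N`, is
reached from `j̄` by a chain of roots of separable prime-level modular equations.
-/
import Fermat.Agent.S18lib.Gink.JK
import Fermat.Agent.S18lib.Gink.SepPoly

set_option autoImplicit false
set_option linter.unusedSectionVars false

noncomputable section

namespace Fermat.Agent.S18lib.Gink

open ModularCurve Fermat.Agent.S28lib Polynomial IntermediateField

variable (A : ValuationSubring (AlgebraicClosure ℚ)) (N : ℕ) [NeZero N]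

/-- one step: if `j̄(q^e)` lies in an intermediate field `S` of `FRes A N / k(j̄)`, then
`j̄(q^{e p})` is separable over `S` -/
theorem isSeparable_jKd_step {p : ℕ} [NeZero p] (hp : p.Prime) (D : ModPolyData (kRes A) p)
    (S : IntermediateField (kRes A)⟮jK A N⟯ (FRes A N)) (e : ℕ) (hep : e * p ∣ N)
    (he : jKd A N e ((Dvd.intro _ rfl).trans hep) ∈ S) :
    IsSeparable S (jKd A N (e * p) hep) := by
  have he0 : e ≠ 0 := fun h => NeZero.ne N (by
    rw [h, zero_mul] at hep; exact Nat.eq_zero_of_zero_dvd hep)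
  -- the embedding of `S` into `k((q))`
  let ι : S →+* LaurentSeries (kRes A) :=
    ((modularFunctionFieldFullC (kRes A) N).val : FRes A N →+* LaurentSeries (kRes A)).comp
      (algebraMap S (FRes A N))
  -- the coefficient map `k[Y] → S`, `Y ↦ j̄(q^e)`
  let c0 : kRes A →+* S :=
    (algebraMap (kRes A)⟮jK A N⟯ S).comp (algebraMap (kRes A) (kRes A)⟮jK A N⟯)
  let ψ : (kRes A)[X] →+* S := Polynomial.eval₂RingHom c0 ⟨_, he⟩
  have hιψ : ι.comp ψ = evalJ (kRes A) (jAt (kRes A) e) := by
    apply Polynomial.ringHom_ext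
    · intro a
      simp only [RingHom.comp_apply, ψ, Polynomial.coe_eval₂RingHom, Polynomial.eval₂_C, evalJ,
        AlgHom.toRingHom_eq_coe, RingHom.coe_coe, Polynomial.aeval_C]
      rfl
    · simp only [RingHom.comp_apply, ψ, Polynomial.coe_eval₂RingHom, Polynomial.eval₂_X, evalJ_X]
      rfl
  set P : S[X] := D.Φ.map ψ with hP
  have hPmap : P.map ι = D.Φ.map (evalJ (kRes A) (jAt (kRes A) e)) := by
    rw [hP, Polynomial.map_map, hιψ]
  have hPsep : P.Separable := by
    rw [← Polynomial.separable_map ι, hPmap]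
    exact separable_map_evalJ hp D e he0
  have hroot : Polynomial.aeval (jKd A N (e * p) hep) P = 0 := by
    apply Subtype.ext
    have h1 : ((Polynomial.aeval (jKd A N (e * p) hep) P : FRes A N) : LaurentSeries (kRes A)) =
        (P.map ι).eval (jAt (kRes A) (e * p)) := by
      rw [Polynomial.aeval_def, Polynomial.eval_map, Polynomial.eval₂_eq_sum_range,
        Polynomial.eval₂_eq_sum_range]
      have h2 : ∀ x : FRes A N, ((x : FRes A N) : LaurentSeries (kRes A)) =
          (modularFunctionFieldFullC (kRes A) N).val x := fun x => rfl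
      rw [h2, map_sum]
      refine Finset.sum_congr rfl fun i _ => ?_
      rw [map_mul, map_pow]
      rfl
    rw [h1, hPmap, eval_jAt_map_evalJ D e he0]
    rfl
  have hP0 : P ≠ 0 := hPsep.ne_zero
  exact hPsep.of_dvd (minpoly.dvd S _ hroot)

variable {ℓ : ℕ} [Fact ℓ.Prime]

/-- every generator `j̄(q^d)`, `d ∣ N`, is separable over `k(j̄)` -/
theorem jKd_mem_separableClosure (hA : A.LiesOverPrime ℓ) (hℓN : ¬ ℓ ∣ N) :
    ∀ (d : ℕ) (hd : d ∣ N), jKd A N d hd ∈ separableClosure (kRes A)⟮jK A N⟯ (FRes A N) := by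
  intro d
  induction d using Nat.strong_induction_on with
  | _ d ih =>
    intro hd
    have hN0 : N ≠ 0 := NeZero.ne N
    have hd0 : d ≠ 0 := fun h => hN0 (by rw [h] at hd; exact Nat.eq_zero_of_zero_dvd hd)
    by_cases h1 : d = 1
    · subst h1
      rw [jKd_one]
      exact IntermediateField.algebraMap_mem _
        (⟨jK A N, IntermediateField.mem_adjoin_simple_self _ _⟩ : (kRes A)⟮jK A N⟯)
    · obtain ⟨p, hp, hpd⟩ := Nat.exists_prime_and_dvd h1
      obtain ⟨e, rfl⟩ := hpd
      have : NeZero p := ⟨hp.ne_zero⟩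
      have : Fact p.Prime := ⟨hp⟩
      have hℓp : ¬ ℓ ∣ p := fun h => hℓN (h.trans ((Dvd.intro _ rfl).trans hd))
      have hpe : p * e = e * p := mul_comm p e
      have hep : e * p ∣ N := hpe ▸ hd
      have he0 : e ≠ 0 := fun h => hd0 (by rw [h, mul_zero])
      have hlt : e < p * e := by
        have := hp.two_le
        have : 0 < e := Nat.pos_of_ne_zero he0
        nlinarith
      have he : jKd A N e ((Dvd.intro _ rfl).trans hep) ∈
          separableClosure (kRes A)⟮jK A N⟯ (FRes A N) := ih e hlt _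
      have hsep := isSeparable_jKd_step A N hp (modPolyData_kRes A hA p hℓp)
        (separableClosure (kRes A)⟮jK A N⟯ (FRes A N)) e hep he
      have h2 : IsSeparable (kRes A)⟮jK A N⟯ (jKd A N (e * p) hep) :=
        IsSeparable.of_algebra_isSeparable_of_isSeparable (kRes A)⟮jK A N⟯ hsep
      have h3 : jKd A N (p * e) hd = jKd A N (e * p) hep := by
        apply Subtype.ext
        rw [coe_jKd, coe_jKd, hpe]
      rw [h3]
      exact mem_separableClosure_iff.mpr h2

/-- **Separability.** `FRes A N / k(j̄)` is separable for `ℓ ∤ N`. -/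
theorem isSeparable_jK (hA : A.LiesOverPrime ℓ) (hℓN : ¬ ℓ ∣ N) :
    Algebra.IsSeparable (kRes A)⟮jK A N⟯ (FRes A N) := by
  refine ⟨fun x => ?_⟩
  rw [← mem_separableClosure_iff]
  obtain ⟨y, hy⟩ := x
  have hy' : y ∈ IntermediateField.adjoin (kRes A) (divisorExpansionsC (kRes A) N) := hy
  revert hy
  induction hy' using IntermediateField.adjoin_induction with
  | mem z hz =>
    intro hy
    rw [divisorExpansionsC_eq] at hz
    obtain ⟨d, hd, rfl⟩ := hz
    exact jKd_mem_separableClosure A N hA hℓN d hd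
  | algebraMap c =>
    intro hy
    have h1 : (⟨algebraMap (kRes A) (LaurentSeries (kRes A)) c, hy⟩ : FRes A N) =
        algebraMap (kRes A)⟮jK A N⟯ (FRes A N) (algebraMap (kRes A) (kRes A)⟮jK A N⟯ c) := by
      apply Subtype.ext
      rfl
    rw [h1]
    exact IntermediateField.algebraMap_mem _ _
  | add a b ha hb iha ihb =>
    intro hy
    have h1 : (⟨a + b, hy⟩ : FRes A N) = ⟨a, ha⟩ + ⟨b, hb⟩ := rfl
    rw [h1]
    exact add_mem (iha ha) (ihb hb)
  | inv a ha iha =>
    intro hy
    have h1 : (⟨a⁻¹, hy⟩ : FRes A N) = (⟨a, ha⟩ : FRes A N)⁻¹ := rfl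
    rw [h1]
    exact inv_mem (iha ha)
  | mul a b ha hb iha ihb =>
    intro hy
    have h1 : (⟨a * b, hy⟩ : FRes A N) = ⟨a, ha⟩ * ⟨b, hb⟩ := rfl
    rw [h1]
    exact mul_mem (iha ha) (ihb hb)

end Fermat.Agent.S18lib.Gink
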