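/-
S18lib / Gink / CuspMain  (helper6)

(Cusp-k), final assembly (CK-Z): `#poles of j̄ on FRes A M ≤ cuspCount M` for `ℓ ∤ M`, from
* (CK-1) the norm argument (`CuspK/Norm.lean`) and (CK-F) the field glue (`Gink/CuspGlue.lean`):
  `#poles ≤ #(Tate embeddings / same centre)`;
* the orbit count `#(Tate embeddings / twists) ≤ cuspCount M` (helper4, `Gink/CuspOrbit.lean`:
  `card_quotient_le`), which enters `card_polesOf_jK_le_of_quotient` as the hypothesis `hquot`.
Result: `card_polesOf_jK_le`.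
-/
import Mathlib
import Fermat.Agent.S18lib.Gink.CuspGlue
import Fermat.Agent.S18lib.Gink.CuspOrbit
import Fermat.Agent.S18lib.Gink.Sep
import Fermat.Agent.S18lib.Gink.Degree
import Fermat.Agent.S18lib.Gink.Bricks
import Fermat.Agent.S18lib.RRgen.Canonical
import Fermat.Prelude.Def_ModularCurve_GenusNumerics

set_option autoImplicit false
set_option linter.unusedSectionVars false
set_option linter.style.haveILetI false

noncomputable section

namespace Fermat.Agent.S18lib.Gink

open ModularCurve Fermat.Agent.S28lib Polynomial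
open Fermat.Agent.S18lib.RRgen.Canonical

variable {ℓ : ℕ} [Fact ℓ.Prime] (A : ValuationSubring (AlgebraicClosure ℚ)) (M : ℕ) [NeZero M]

/-- the same-centre relation on a set of embeddings into `k((u))`. -/
def sameCentre {F : Type*} [Field F] {k : Type*} [Field k] (S : Finset (F →+* LaurentSeries k)) :
    Setoid {σ // σ ∈ S} where
  r σ σ' := ∀ θ : F, 0 < (σ.1 θ).order ↔ 0 < (σ'.1 θ).order
  iseqv := ⟨fun _ _ => Iff.rfl, fun h θ => (h θ).symm, fun h h' θ => (h θ).trans (h' θ)⟩

/-- **(CK-Z)**, parametrised by the orbit count. -/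
theorem card_polesOf_jK_le_of_quotient (hA : A.LiesOverPrime ℓ) (hℓM : ¬ ℓ ∣ M)
    (hquot : ∀ S : Finset (FRes A M →+* LaurentSeries (kRes A)),
      (∀ σ, σ ∈ S ↔ ∃ T : TateEmb M (RingHom.id (LaurentSeries (kRes A))), T.σ = σ) →
      ∀ r : Setoid {σ // σ ∈ S},
        (∀ σ σ' : {σ // σ ∈ S},
          (∃ ξ : (kRes A)ˣ, ξ ^ (M * M) = 1 ∧ σ'.1 = (twist ξ).comp σ.1) → r σ σ') →
        Nat.card (Quotient r) ≤ cuspCount M) :
    Nat.card (Tame.polesOf (K := kRes A) (jK A M)) ≤ cuspCount M := by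
  haveI : IsAlgClosed (kRes A) := isAlgClosed_residueField A
  have hx := transcendental_jK A M
  haveI := finiteDimensional_jK A M
  letI := polyAlgebra (kRes A) (jK A M)
  letI := ratFuncAlgebra (kRes A) hx
  haveI := isScalarTower_poly_ratFunc (kRes A) hx
  haveI := isScalarTower_const_ratFunc (kRes A) hx
  haveI := isSeparable_jK A M hA hℓM
  haveI := finiteDimensional_ratFunc (kRes A) hx
  haveI := isSeparable_ratFunc (kRes A) hx
  haveI := isScalarTower_ainf_ratFunc (kRes A) (FRes A M)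
  haveI := isScalarTower_const_ainf (kRes A) (FRes A M)
  letI := algebraBInf (kRes A) (FRes A M)
  haveI := isScalarTower_const_BInf (kRes A) (FRes A M)
  haveI := isTorsionFree_BInf (kRes A) (FRes A M)
  haveI := isFractionRing_BInf (kRes A) (FRes A M)
  haveI := isDedekindDomain_BInf (kRes A) (FRes A M)
  haveI := finite_BInf (kRes A) (FRes A M)
  have hxX : algebraMap (RatFunc (kRes A)) (FRes A M) RatFunc.X = jF M 1 (one_dvd M) := by
    rw [algebraMap_ratFuncAlgebra_X (kRes A) hx]
    exact (jKd_one A M).symm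
  have hΦ : ∀ (p : ℕ) [NeZero p], p.Prime → p ∣ M → ModPolyData (kRes A) p := by
    intro p _ hp hpM
    haveI : Fact p.Prime := ⟨hp⟩
    refine modPolyData_kRes A hA p (fun hℓp => hℓM (hℓp.trans hpM))
  obtain ⟨S, hS, -, hle⟩ :=
    exists_finset_isTate_card_polesOf_le M hΦ hxX (BInf (kRes A) (FRes A M))
  have h1 := hle (sameCentre S) (fun σ σ' h => h)
  have h2 := hquot S hS (sameCentre S) (by
    rintro σ σ' ⟨ξ, -, hξ⟩ θ
    rw [hξ, RingHom.comp_apply, order_twist])
  have hxF : RRgen.xF (kRes A) (FRes A M) = jK A M := algebraMap_ratFuncAlgebra_X (kRes A) hx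
  rw [hxF] at h1
  exact h1.trans h2

/-- **(Cusp-k)**: on the reduction `FRes A M` of the modular curve `X₀(M)` (`ℓ ∤ M`), the function
`j̄` has at most `cuspCount M` poles. -/
theorem card_polesOf_jK_le (hA : A.LiesOverPrime ℓ) (hℓM : ¬ ℓ ∣ M) :
    Nat.card (Tame.polesOf (K := kRes A) (jK A M)) ≤ cuspCount M := by
  haveI : IsAlgClosed (kRes A) := isAlgClosed_residueField A
  have hΦ : ∀ (p : ℕ) [NeZero p], p.Prime → p ∣ M → ModPolyData (kRes A) p := by
    intro p _ hp hpM
    haveI : Fact p.Prime := ⟨hp⟩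
    exact modPolyData_kRes A hA p (fun hℓp => hℓM (hℓp.trans hpM))
  exact card_polesOf_jK_le_of_quotient A M hA hℓM
    (fun S hS r hr => card_quotient_le (natCast_ne_zero_kRes hA hℓM) hΦ S hS r hr)

end Fermat.Agent.S18lib.Gink
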