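/-
S18lib / Gink / CuspSquare  (helper4)

(Cusp-k), combinatorics of Tate vertices: up and down are exclusive, `p`-adic valuations of the
exponents along steps, commutation squares for two distinct primes, and the unique common
neighbour lemma.
-/
import Fermat.Agent.S18lib.Gink.CuspDefs

set_option autoImplicit false

noncomputable section

namespace Fermat.Agent.S18lib.Gink

variable {k : Type*} [Field k]

theorem not_isUp_and_isDown {p : ℕ} (hp : p.Prime) {v w : kˣ × ℕ} (hv : v.2 ≠ 0)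
    (h1 : IsUp p v w) (h2 : IsDown p v w) : False := by
  have h3 : p * (p * v.2) = v.2 := by rw [← h1.2]; exact h2.2
  have h4 := hp.two_le
  have h5 : 0 < v.2 := Nat.pos_of_ne_zero hv
  have h6 : 2 * (2 * v.2) ≤ p * (p * v.2) := Nat.mul_le_mul h4 (Nat.mul_le_mul h4 le_rfl)
  omega

theorem Adj.isDown_of_not_isUp {p : ℕ} {v w : kˣ × ℕ} (h : Adj p v w) (h1 : ¬ IsUp p v w) :
    IsDown p v w := h.resolve_left h1

theorem Adj.isUp_of_not_isDown {p : ℕ} {v w : kˣ × ℕ} (h : Adj p v w) (h1 : ¬ IsDown p v w) :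
    IsUp p v w := h.resolve_right h1

/-! ### valuations along steps -/

theorem IsUp.padicValNat_self {p : ℕ} (hp : p.Prime) {v w : kˣ × ℕ} (hv : v.2 ≠ 0)
    (h : IsUp p v w) : padicValNat p w.2 = padicValNat p v.2 + 1 := by
  have : Fact p.Prime := ⟨hp⟩
  rw [h.2, padicValNat.mul hp.ne_zero hv, _root_.padicValNat_self, add_comm]

theorem IsDown.padicValNat_self {p : ℕ} (hp : p.Prime) {v w : kˣ × ℕ} (hv : v.2 ≠ 0)
    (h : IsDown p v w) : padicValNat p v.2 = padicValNat p w.2 + 1 :=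
  h.isUp.padicValNat_self hp (h.snd_ne_zero hv)

theorem IsUp.padicValNat_other {p p' : ℕ} (hp : p.Prime) (hp' : p'.Prime) (hne : p ≠ p')
    {v w : kˣ × ℕ} (hv : v.2 ≠ 0) (h : IsUp p' v w) : padicValNat p w.2 = padicValNat p v.2 := by
  have : Fact p.Prime := ⟨hp⟩
  have : Fact p'.Prime := ⟨hp'⟩
  rw [h.2, padicValNat.mul hp'.ne_zero hv, padicValNat_primes hne, zero_add]

theorem Adj.padicValNat_other {p p' : ℕ} (hp : p.Prime) (hp' : p'.Prime) (hne : p ≠ p')
    {v w : kˣ × ℕ} (hv : v.2 ≠ 0) (h : Adj p' v w) : padicValNat p w.2 = padicValNat p v.2 := by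
  rcases h with h | h
  · exact h.padicValNat_other hp hp' hne hv
  · exact (h.isUp.padicValNat_other hp hp' hne (h.snd_ne_zero hv)).symm

/-- the direction of a step is detected by the valuation -/
theorem Adj.isUp_iff_padicValNat {p : ℕ} (hp : p.Prime) {v w : kˣ × ℕ} (hv : v.2 ≠ 0)
    (h : Adj p v w) : IsUp p v w ↔ padicValNat p w.2 = padicValNat p v.2 + 1 := by
  constructor
  · exact fun h1 => h1.padicValNat_self hp hv
  · intro h1
    rcases h with h | h
    · exact h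
    · have := h.padicValNat_self hp hv
      omega

/-- **Commutation square.** For distinct primes `p ≠ p'`, in a square
`w₀ -p- w₁`, `w₀ -p'- w₂`, `w₁ -p'- x`, `w₂ -p- x` opposite sides have the same direction. -/
theorem square_isUp_iff {p p' : ℕ} (hp : p.Prime) (hp' : p'.Prime) (hne : p ≠ p')
    {w₀ w₁ w₂ x : kˣ × ℕ} (h0 : w₀.2 ≠ 0) (h01 : Adj p w₀ w₁) (h02 : Adj p' w₀ w₂)
    (h1x : Adj p' w₁ x) (h2x : Adj p w₂ x) : IsUp p w₀ w₁ ↔ IsUp p w₂ x := by
  have h1 : w₁.2 ≠ 0 := h01.snd_ne_zero hp.ne_zero h0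
  have h2 : w₂.2 ≠ 0 := h02.snd_ne_zero hp'.ne_zero h0
  rw [h01.isUp_iff_padicValNat hp h0, h2x.isUp_iff_padicValNat hp h2,
    h1x.padicValNat_other hp hp' hne h1, h02.padicValNat_other hp hp' hne h0]

/-- **Unique common neighbour.** For distinct primes there is at most one vertex which is
`p'`-adjacent to `w₁` and `p`-adjacent to `w₂`. -/
theorem common_neighbour_unique {p p' : ℕ} (hp : p.Prime) (hp' : p'.Prime) (hne : p ≠ p')
    {w₁ w₂ x x' : kˣ × ℕ} (h1 : w₁.2 ≠ 0) (h2 : w₂.2 ≠ 0)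
    (hx1 : Adj p' w₁ x) (hx2 : Adj p w₂ x) (hx1' : Adj p' w₁ x') (hx2' : Adj p w₂ x') :
    x = x' := by
  -- same directions
  have hv' : padicValNat p' x.2 = padicValNat p' x'.2 := by
    rw [hx2.padicValNat_other hp' hp hne.symm h2, hx2'.padicValNat_other hp' hp hne.symm h2]
  have hv : padicValNat p x.2 = padicValNat p x'.2 := by
    rw [hx1.padicValNat_other hp hp' hne h1, hx1'.padicValNat_other hp hp' hne h1]
  have hd1 : IsUp p' w₁ x ↔ IsUp p' w₁ x' := by
    rw [hx1.isUp_iff_padicValNat hp' h1, hx1'.isUp_iff_padicValNat hp' h1, hv']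
  have hd2 : IsUp p w₂ x ↔ IsUp p w₂ x' := by
    rw [hx2.isUp_iff_padicValNat hp h2, hx2'.isUp_iff_padicValNat hp h2, hv]
  by_cases hu1 : IsUp p' w₁ x
  · exact hu1.unique (hd1.mp hu1)
  by_cases hu2 : IsUp p w₂ x
  · exact hu2.unique (hd2.mp hu2)
  have hdn1 := hx1.isDown_of_not_isUp hu1
  have hdn1' := hx1'.isDown_of_not_isUp (fun h => hu1 (hd1.mpr h))
  have hdn2 := hx2.isDown_of_not_isUp hu2
  have hdn2' := hx2'.isDown_of_not_isUp (fun h => hu2 (hd2.mpr h))
  have he : x.2 = x'.2 := by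
    have h3 : p * x.2 = p * x'.2 := hdn2.2.trans hdn2'.2.symm
    exact Nat.eq_of_mul_eq_mul_left hp.pos h3
  have hz : x.1 = x'.1 := by
    have ha : (x.1 / x'.1) ^ p' = 1 := by
      rw [div_pow, hdn1.1, hdn1'.1, div_self']
    have hb : (x.1 / x'.1) ^ p = 1 := by
      rw [div_pow, hdn2.1, hdn2'.1, div_self']
    have hc := (pow_gcd_eq_one (a := x.1 / x'.1) (m := p) (n := p')).mpr ⟨hb, ha⟩
    have hg : Nat.gcd p p' = 1 := (Nat.coprime_primes hp hp').mpr hne
    rw [hg, pow_one] at hc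
    exact div_eq_one.mp hc
  exact Prod.ext hz he

end Fermat.Agent.S18lib.Gink
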