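/-
S18lib / Gink / CuspConf  (helper4)

(Cusp-k), configurations of Tate vertices on the divisors of `M = M₀ p^r`, `p ∤ M₀`, in the
coordinates `(δ₀, t) ↦ c (δ₀ p^t)`: all exponents are nonzero, the direction of a `p`-step does not
depend on `δ₀`, the exponents are multiplicative, and a configuration is determined by its
restriction to the divisors of `M₀` and its `p`-path `t ↦ c (p^t)`.
-/
import Fermat.Agent.S18lib.Gink.CuspSquare

set_option autoImplicit false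

noncomputable section

namespace Fermat.Agent.S18lib.Gink

variable {k : Type*} [Field k]

namespace IsConf

variable {e₀ M : ℕ} {c : ℕ → kˣ × ℕ}

theorem mono (hc : IsConf e₀ M c) {M' : ℕ} (h : M' ∣ M) : IsConf e₀ M' c where
  base := hc.base
  adj δ p hp hδ := hc.adj δ p hp (hδ.trans h)
  nb δ p hp hδ := hc.nb δ p hp (hδ.trans h)

/-- all exponents are nonzero -/
theorem snd_ne_zero (hc : IsConf e₀ M c) (he₀ : e₀ ≠ 0) : ∀ δ : ℕ, δ ≠ 0 → δ ∣ M → (c δ).2 ≠ 0 := by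
  intro δ
  induction δ using Nat.strong_induction_on with
  | _ δ ih =>
    intro hδ0 hδ
    by_cases h1 : δ = 1
    · subst h1; rw [hc.base]; exact he₀
    · obtain ⟨q, hq, hqd⟩ := Nat.exists_prime_and_dvd h1
      obtain ⟨δ', rfl⟩ := hqd
      have hδ'0 : δ' ≠ 0 := fun h => hδ0 (by rw [h, mul_zero])
      have hlt : δ' < q * δ' := by
        have := hq.two_le
        have : 0 < δ' := Nat.pos_of_ne_zero hδ'0
        nlinarith
      have hcomm : q * δ' = δ' * q := mul_comm q δ'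
      have h2 := ih δ' hlt hδ'0 ((Dvd.intro_left q rfl).trans hδ)
      have h3 := hc.adj δ' q hq (hcomm ▸ hδ)
      rw [hcomm]
      exact h3.snd_ne_zero hq.ne_zero h2

/-- the type of every vertex: `e_δ d = e₀ a` with `a d = δ` -/
theorem exists_type (hc : IsConf e₀ M c) : ∀ δ : ℕ, δ ≠ 0 → δ ∣ M →
    ∃ a d : ℕ, a * d = δ ∧ (c δ).2 * d = e₀ * a := by
  intro δ
  induction δ using Nat.strong_induction_on with
  | _ δ ih =>
    intro hδ0 hδ
    by_cases h1 : δ = 1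
    · subst h1
      exact ⟨1, 1, rfl, by rw [hc.base]⟩
    · obtain ⟨q, hq, hqd⟩ := Nat.exists_prime_and_dvd h1
      obtain ⟨δ', rfl⟩ := hqd
      have hδ'0 : δ' ≠ 0 := fun h => hδ0 (by rw [h, mul_zero])
      have hlt : δ' < q * δ' := by
        have := hq.two_le
        have : 0 < δ' := Nat.pos_of_ne_zero hδ'0
        nlinarith
      have hcomm : q * δ' = δ' * q := mul_comm q δ'
      obtain ⟨a, d, had, hv⟩ := ih δ' hlt hδ'0 ((Dvd.intro_left q rfl).trans hδ)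
      have h3 := hc.adj δ' q hq (hcomm ▸ hδ)
      rw [hcomm]
      rcases h3 with h3 | h3
      · refine ⟨a * q, d, by rw [← had]; ring, ?_⟩
        rw [h3.2, mul_assoc, hv]; ring
      · refine ⟨a, d * q, by rw [← had]; ring, ?_⟩
        rw [← hv, ← h3.2]; ring

/-- **square**: the direction of a `p`-step is unchanged by a `q`-step, `q ≠ p` -/
theorem square (hc : IsConf e₀ M c) (he₀ : e₀ ≠ 0) (hM : M ≠ 0) {p q : ℕ} (hp : p.Prime)
    (hq : q.Prime) (hne : p ≠ q) (δ : ℕ) (h : δ * q * p ∣ M) :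
    IsUp p (c (δ * q)) (c (δ * q * p)) ↔ IsUp p (c δ) (c (δ * p)) := by
  have hδq : δ * q ∣ M := (Dvd.intro _ rfl).trans h
  have hδ : δ ∣ M := (Dvd.intro _ rfl).trans hδq
  have hδp : δ * p ∣ M := (show δ * p ∣ δ * q * p from ⟨q, by ring⟩).trans h
  have hδ0 : δ ≠ 0 := ne_zero_of_dvd_ne_zero hM hδ
  have h0 := hc.snd_ne_zero he₀ δ hδ0 hδ
  have h01 : Adj p (c δ) (c (δ * p)) := hc.adj δ p hp hδp
  have h02 : Adj q (c δ) (c (δ * q)) := hc.adj δ q hq hδq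
  have h1x : Adj q (c (δ * p)) (c (δ * p * q)) :=
    hc.adj (δ * p) q hq (by rw [mul_right_comm]; exact h)
  have h2x : Adj p (c (δ * q)) (c (δ * q * p)) := hc.adj (δ * q) p hp h
  rw [mul_right_comm] at h1x
  exact (square_isUp_iff hp hq hne h0 h01 h02 h1x h2x).symm

section Product

variable {p M₀ r : ℕ}

theorem dvd_of_dvd_of_le {δ₀ t : ℕ} (hδ₀ : δ₀ ∣ M₀) (ht : t ≤ r) : δ₀ * p ^ t ∣ M₀ * p ^ r :=
  Nat.mul_dvd_mul hδ₀ (pow_dvd_pow p ht)

/-- the direction of the `p`-step at `δ₀ p^t` does not depend on `δ₀` -/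
theorem isUp_iff (hc : IsConf e₀ (M₀ * p ^ r) c) (he₀ : e₀ ≠ 0) (hM₀ : M₀ ≠ 0) (hp : p.Prime)
    (hpM : ¬ p ∣ M₀) {t : ℕ} (ht : t < r) : ∀ δ₀ : ℕ, δ₀ ∣ M₀ →
    (IsUp p (c (δ₀ * p ^ t)) (c (δ₀ * p ^ t * p)) ↔ IsUp p (c (p ^ t)) (c (p ^ t * p))) := by
  have hM : M₀ * p ^ r ≠ 0 := Nat.mul_ne_zero hM₀ (pow_ne_zero _ hp.ne_zero)
  intro δ₀
  induction δ₀ using Nat.strong_induction_on with
  | _ δ₀ ih =>
    intro hδ₀
    have hδ₀0 : δ₀ ≠ 0 := ne_zero_of_dvd_ne_zero hM₀ hδ₀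
    by_cases h1 : δ₀ = 1
    · subst h1; rw [one_mul]
    · obtain ⟨q, hq, hqd⟩ := Nat.exists_prime_and_dvd h1
      obtain ⟨δ₁, rfl⟩ := hqd
      have hδ₁0 : δ₁ ≠ 0 := fun h => hδ₀0 (by rw [h, mul_zero])
      have hlt : δ₁ < q * δ₁ := by
        have := hq.two_le
        have : 0 < δ₁ := Nat.pos_of_ne_zero hδ₁0
        nlinarith
      have hne : p ≠ q := by
        rintro rfl
        exact hpM ((Dvd.intro _ rfl).trans hδ₀)
      have hδ₁ : δ₁ ∣ M₀ := (Dvd.intro_left q rfl).trans hδ₀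
      have h2 : q * δ₁ * p ^ t = δ₁ * p ^ t * q := by ring
      rw [h2]
      have hdvd : δ₁ * p ^ t * q * p ∣ M₀ * p ^ r := by
        have h3 : δ₁ * p ^ t * q * p = (q * δ₁) * p ^ (t + 1) := by rw [pow_succ]; ring
        rw [h3]
        exact dvd_of_dvd_of_le hδ₀ ht
      rw [hc.square he₀ hM hp hq hne (δ₁ * p ^ t) hdvd]
      exact ih δ₁ hlt hδ₁

/-- the exponents are multiplicative -/
theorem snd_mul (hc : IsConf e₀ (M₀ * p ^ r) c) (he₀ : e₀ ≠ 0) (hM₀ : M₀ ≠ 0) (hp : p.Prime)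
    (hpM : ¬ p ∣ M₀) {δ₀ : ℕ} (hδ₀ : δ₀ ∣ M₀) : ∀ t : ℕ, t ≤ r →
    (c (δ₀ * p ^ t)).2 * e₀ = (c δ₀).2 * (c (p ^ t)).2 := by
  intro t
  induction t with
  | zero =>
    intro _
    rw [pow_zero, mul_one, hc.base]
  | succ t ih =>
    intro ht
    have ht' : t < r := ht
    have h1 := ih ht'.le
    have hadj1 : Adj p (c (δ₀ * p ^ t)) (c (δ₀ * p ^ t * p)) :=
      hc.adj (δ₀ * p ^ t) p hp (by
        have h3 : δ₀ * p ^ t * p = δ₀ * p ^ (t + 1) := by rw [pow_succ]; ring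
        rw [h3]; exact dvd_of_dvd_of_le hδ₀ ht)
    have hadj2 : Adj p (c (p ^ t)) (c (p ^ t * p)) :=
      hc.adj (p ^ t) p hp (by
        have h3 : p ^ t * p = 1 * p ^ (t + 1) := by rw [pow_succ]; ring
        rw [h3]; exact dvd_of_dvd_of_le (one_dvd M₀) ht)
    have hiff := hc.isUp_iff he₀ hM₀ hp hpM ht' δ₀ hδ₀
    have e1 : δ₀ * p ^ (t + 1) = δ₀ * p ^ t * p := by rw [pow_succ]; ring
    have e2 : p ^ (t + 1) = p ^ t * p := pow_succ p t
    rw [e1, e2]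
    by_cases hu : IsUp p (c (δ₀ * p ^ t)) (c (δ₀ * p ^ t * p))
    · have hu2 := hiff.mp hu
      rw [hu.2, hu2.2, mul_assoc, h1]; ring
    · have hd := hadj1.isDown_of_not_isUp hu
      have hd2 := hadj2.isDown_of_not_isUp (fun h => hu (hiff.mpr h))
      have h4 : p * ((c (δ₀ * p ^ t * p)).2 * e₀) = p * ((c δ₀).2 * (c (p ^ t * p)).2) := by
        rw [← mul_assoc, hd.2, h1, ← hd2.2]; ring
      exact Nat.eq_of_mul_eq_mul_left hp.pos h4

/-- **Determination.** A configuration on `M₀ p^r` is determined by its values on the divisors of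
`M₀` and on the powers of `p`. -/
theorem eq_of_eq (hc : IsConf e₀ (M₀ * p ^ r) c) {c' : ℕ → kˣ × ℕ}
    (hc' : IsConf e₀ (M₀ * p ^ r) c') (he₀ : e₀ ≠ 0) (hM₀ : M₀ ≠ 0) (hp : p.Prime)
    (hpM : ¬ p ∣ M₀) (h0 : ∀ δ₀ : ℕ, δ₀ ∣ M₀ → c δ₀ = c' δ₀)
    (hP : ∀ t : ℕ, t ≤ r → c (p ^ t) = c' (p ^ t)) :
    ∀ t : ℕ, t ≤ r → ∀ δ₀ : ℕ, δ₀ ∣ M₀ → c (δ₀ * p ^ t) = c' (δ₀ * p ^ t) := by
  have hM : M₀ * p ^ r ≠ 0 := Nat.mul_ne_zero hM₀ (pow_ne_zero _ hp.ne_zero)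
  intro t
  induction t with
  | zero =>
    intro _ δ₀ hδ₀
    rw [pow_zero, mul_one]
    exact h0 δ₀ hδ₀
  | succ t iht =>
    intro ht δ₀
    induction δ₀ using Nat.strong_induction_on with
    | _ δ₀ ih =>
      intro hδ₀
      have hδ₀0 : δ₀ ≠ 0 := ne_zero_of_dvd_ne_zero hM₀ hδ₀
      by_cases h1 : δ₀ = 1
      · subst h1; rw [one_mul]; exact hP (t + 1) ht
      · obtain ⟨q, hq, hqd⟩ := Nat.exists_prime_and_dvd h1
        obtain ⟨δ₁, rfl⟩ := hqd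
        have hδ₁0 : δ₁ ≠ 0 := fun h => hδ₀0 (by rw [h, mul_zero])
        have hlt : δ₁ < q * δ₁ := by
          have := hq.two_le
          have : 0 < δ₁ := Nat.pos_of_ne_zero hδ₁0
          nlinarith
        have hne : p ≠ q := by
          rintro rfl
          exact hpM ((Dvd.intro _ rfl).trans hδ₀)
        have hδ₁ : δ₁ ∣ M₀ := (Dvd.intro_left q rfl).trans hδ₀
        -- the two lower corners
        have hw1 : c (δ₁ * p ^ (t + 1)) = c' (δ₁ * p ^ (t + 1)) := ih δ₁ hlt hδ₁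
        have hw2 : c (q * δ₁ * p ^ t) = c' (q * δ₁ * p ^ t) :=
          iht (Nat.le_of_succ_le ht) (q * δ₁) hδ₀
        have hd1 : δ₁ * p ^ (t + 1) ∣ M₀ * p ^ r := dvd_of_dvd_of_le hδ₁ ht
        have hd2 : q * δ₁ * p ^ t ∣ M₀ * p ^ r := dvd_of_dvd_of_le hδ₀ (Nat.le_of_succ_le ht)
        have hd : q * δ₁ * p ^ (t + 1) ∣ M₀ * p ^ r := dvd_of_dvd_of_le hδ₀ ht
        have e1 : δ₁ * p ^ (t + 1) * q = q * δ₁ * p ^ (t + 1) := by ring
        have e2 : q * δ₁ * p ^ t * p = q * δ₁ * p ^ (t + 1) := by rw [pow_succ]; ring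
        have ha1 : Adj q (c (δ₁ * p ^ (t + 1))) (c (q * δ₁ * p ^ (t + 1))) := by
          have := hc.adj (δ₁ * p ^ (t + 1)) q hq (e1 ▸ hd)
          rwa [e1] at this
        have ha2 : Adj p (c (q * δ₁ * p ^ t)) (c (q * δ₁ * p ^ (t + 1))) := by
          have := hc.adj (q * δ₁ * p ^ t) p hp (e2 ▸ hd)
          rwa [e2] at this
        have ha1' : Adj q (c' (δ₁ * p ^ (t + 1))) (c' (q * δ₁ * p ^ (t + 1))) := by
          have := hc'.adj (δ₁ * p ^ (t + 1)) q hq (e1 ▸ hd)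
          rwa [e1] at this
        have ha2' : Adj p (c' (q * δ₁ * p ^ t)) (c' (q * δ₁ * p ^ (t + 1))) := by
          have := hc'.adj (q * δ₁ * p ^ t) p hp (e2 ▸ hd)
          rwa [e2] at this
        rw [← hw1] at ha1'
        rw [← hw2] at ha2'
        have hn1 := hc.snd_ne_zero he₀ _ (ne_zero_of_dvd_ne_zero hM hd1) hd1
        have hn2 := hc.snd_ne_zero he₀ _ (ne_zero_of_dvd_ne_zero hM hd2) hd2
        exact common_neighbour_unique hp hq hne hn1 hn2 ha1 ha2 ha1' ha2'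

end Product

end IsConf

end Fermat.Agent.S18lib.Gink
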