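/-
S18lib / Gink / CuspArith  (helper2)

(CK-A) of helper4's (Cusp-k) plan: the arithmetic of the counting functions `nu` and `cnt` of
`CuspDefs`: multiplicativity of `nu` over a prime power coprime to the rest, `nu 1 1 = 1`, and
uniqueness of the decomposition `a = a₀ p^i` with `p ∤ a₀`.
-/
import Fermat.Agent.S18lib.Gink.CuspDefs

set_option autoImplicit false

namespace Fermat.Agent.S18lib.Gink

/-- `gcd (p^s) (p^t) = p^(min s t)` -/
theorem gcd_pow_pow_self (p s t : ℕ) : Nat.gcd (p ^ s) (p ^ t) = p ^ min s t := by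
  rcases le_total s t with h | h
  · rw [min_eq_left h]; exact Nat.gcd_eq_left (pow_dvd_pow p h)
  · rw [min_eq_right h]; exact Nat.gcd_eq_right (pow_dvd_pow p h)

/-- `gcd (m p^s) (n p^t) = gcd m n * p^(min s t)` for `m`, `n` prime to `p` -/
theorem gcd_mul_pow_mul_pow {p m n : ℕ} (hm : Nat.Coprime m p) (hn : Nat.Coprime n p)
    (s t : ℕ) : Nat.gcd (m * p ^ s) (n * p ^ t) = Nat.gcd m n * p ^ min s t := by
  have hnt : Nat.Coprime n (p ^ t) := hn.pow_right t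
  have hms : Nat.Coprime m (p ^ s) := hm.pow_right s
  rw [Nat.Coprime.gcd_mul _ hnt, Nat.gcd_comm (m * p ^ s) n, Nat.Coprime.gcd_mul _ hms,
    Nat.gcd_comm (m * p ^ s) (p ^ t), Nat.Coprime.gcd_mul _ hms]
  have h1 : Nat.gcd n (p ^ s) = 1 := hn.pow_right s
  have h2 : Nat.gcd (p ^ t) m = 1 := (hm.pow_right t).symm
  rw [h1, h2, gcd_pow_pow_self, Nat.gcd_comm n m, min_comm t s]
  ring

/-- `nu` is multiplicative over a prime power coprime to the rest, with local factor `cnt` -/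
theorem nu_mul_prime_pow {p M0 a0 r i : ℕ} (hp : p.Prime) (hM0 : M0 ≠ 0) (hpM0 : ¬ p ∣ M0)
    (ha0 : a0 ∣ M0) (hi : i ≤ r) :
    nu (M0 * p ^ r) (a0 * p ^ i) = nu M0 a0 * cnt p r i := by
  have hcM : Nat.Coprime M0 p := ((Nat.Prime.coprime_iff_not_dvd hp).2 hpM0).symm
  have hca : Nat.Coprime a0 p := Nat.Coprime.coprime_dvd_left ha0 hcM
  have hcaa : Nat.Coprime (a0 * a0) p := Nat.Coprime.mul_left hca hca
  have hcq : Nat.Coprime (M0 / a0) p := Nat.Coprime.coprime_dvd_left (Nat.div_dvd_of_dvd ha0) hcM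
  have ha0pos : 0 < a0 := Nat.pos_of_dvd_of_pos ha0 (Nat.pos_of_ne_zero hM0)
  have hppos : 0 < p := hp.pos
  unfold nu cnt
  -- the first gcd
  have e1 : a0 * p ^ i * (a0 * p ^ i) = a0 * a0 * p ^ (2 * i) := by ring
  have g1 : Nat.gcd (M0 * p ^ r) (a0 * p ^ i * (a0 * p ^ i))
      = Nat.gcd M0 (a0 * a0) * p ^ min r (2 * i) := by
    rw [e1]; exact gcd_mul_pow_mul_pow hcM hcaa r (2 * i)
  -- the quotient `M / a`
  have q1 : M0 * p ^ r / (a0 * p ^ i) = M0 / a0 * p ^ (r - i) := by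
    rw [Nat.mul_div_mul_comm ha0 (pow_dvd_pow p hi), Nat.pow_div hi hppos]
  have g2 : Nat.gcd (a0 * p ^ i) (M0 * p ^ r / (a0 * p ^ i))
      = Nat.gcd a0 (M0 / a0) * p ^ min i (r - i) := by
    rw [q1]; exact gcd_mul_pow_mul_pow hca hcq i (r - i)
  -- the quotient `M / gcd`
  have q2 : M0 * p ^ r / (Nat.gcd M0 (a0 * a0) * p ^ min r (2 * i))
      = M0 / Nat.gcd M0 (a0 * a0) * p ^ (r - min r (2 * i)) := by
    rw [Nat.mul_div_mul_comm (Nat.gcd_dvd_left _ _)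
      (pow_dvd_pow p (min_le_left _ _)), Nat.pow_div (min_le_left _ _) hppos]
  have hcg : Nat.Coprime (Nat.gcd a0 (M0 / a0)) (p ^ min i (r - i)) :=
    (Nat.Coprime.coprime_dvd_left (Nat.gcd_dvd_left _ _) hca).pow_right _
  rw [g1, g2, q2, Nat.totient_mul hcg]
  ring

theorem nu_one : nu 1 1 = 1 := by
  simp [nu]

/-- uniqueness of the decomposition `a = a₀ p^i`, `p ∤ a₀` -/
theorem eq_of_mul_pow_eq_of_pos {p a0 a0' i i' : ℕ} (hp : 0 < p) (h0 : ¬ p ∣ a0)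
    (h0' : ¬ p ∣ a0') (h : a0 * p ^ i = a0' * p ^ i') : a0 = a0' ∧ i = i' := by
  have key : ∀ {a b s t : ℕ}, ¬ p ∣ a → ¬ p ∣ b → a * p ^ s = b * p ^ t → s ≤ t → a = b ∧ s = t := by
    intro a b s t ha hb hab hst
    obtain ⟨d, rfl⟩ := Nat.exists_eq_add_of_le hst
    rw [pow_add, ← mul_assoc, mul_right_comm] at hab
    have hps : 0 < p ^ s := pow_pos hp s
    have hab' : a = b * p ^ d := Nat.eq_of_mul_eq_mul_right hps hab
    rcases Nat.eq_zero_or_pos d with rfl | hd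
    · simpa using hab'
    · exfalso
      apply ha
      rw [hab']
      exact Dvd.dvd.mul_left (dvd_pow_self p hd.ne') b
  rcases le_total i i' with hii | hii
  · exact key h0 h0' h hii
  · obtain ⟨e1, e2⟩ := key h0' h0 h.symm hii
    exact ⟨e1.symm, e2.symm⟩

/-- uniqueness of the decomposition `a = a₀ p^i`, `p ∤ a₀`, `p` prime -/
theorem eq_of_mul_pow_eq {p a0 a0' i i' : ℕ} (hp : p.Prime) (h0 : ¬ p ∣ a0) (h0' : ¬ p ∣ a0')
    (h : a0 * p ^ i = a0' * p ^ i') : a0 = a0' ∧ i = i' :=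
  eq_of_mul_pow_eq_of_pos hp.pos h0 h0' h

end Fermat.Agent.S18lib.Gink
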