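/-
S18lib / Gink / CuspPath  (helper6)

(Cusp-k), slice (CK-P): prime-power paths of Tate vertices.
* `exists_isPath` (P1): a non-backtracking `p`-adjacent sequence is "up, then down";
* `card_paths_le` (P2): the number of such paths of shape `(r, i)` starting at a given vertex is at
  most `cnt p r i`;
* `IsPath.snd_eq` (P3): the exponent at the end of a path.
-/
import Mathlib
import Fermat.Agent.S18lib.Gink.CuspDefs

set_option autoImplicit false

noncomputable section

namespace Fermat.Agent.S18lib.Gink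

variable {k : Type*} [Field k]

/-! ### P1 -/

/-- going down and then up brings you back. -/
theorem eq_of_isDown_of_isUp {p : ℕ} {u v w : kˣ × ℕ} (h1 : IsDown p u v) (h2 : IsUp p v w) :
    w = u :=
  Prod.ext (h2.1.trans h1.1) (h2.2.trans h1.2)

/-- **(P1)** a non-backtracking sequence of `p`-adjacent vertices goes up for a while and then
down. -/
theorem exists_isPath {p : ℕ} (_hp : p.Prime) (w : ℕ → kˣ × ℕ) (_h0 : (w 0).2 ≠ 0) (r : ℕ)
    (hadj : ∀ t < r, Adj p (w t) (w (t + 1))) (hnb : ∀ t, t + 2 ≤ r → w (t + 2) ≠ w t) :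
    ∃ i ≤ r, IsPath p r i w := by
  classical
  have hex : ∃ t, t = r ∨ ¬ IsUp p (w t) (w (t + 1)) := ⟨r, Or.inl rfl⟩
  set i := Nat.find hex with hi
  have hir : i ≤ r := Nat.find_min' hex (Or.inl rfl)
  have hup : ∀ t, t < i → IsUp p (w t) (w (t + 1)) := by
    intro t ht
    have := Nat.find_min hex ht
    rw [not_or, not_not] at this
    exact this.2
  have hdown : ∀ t, i ≤ t → t < r → IsDown p (w t) (w (t + 1)) := by
    intro t hit
    induction t, hit using Nat.le_induction with
    | base =>
      intro hlt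
      have hspec := Nat.find_spec hex
      rw [← hi] at hspec
      have hnup : ¬ IsUp p (w i) (w (i + 1)) := hspec.resolve_left hlt.ne
      exact (hadj i hlt).resolve_left hnup
    | succ t hit ih =>
      intro hlt
      have hd := ih (by omega)
      rcases hadj (t + 1) hlt with hu | hd'
      · exact absurd (eq_of_isDown_of_isUp hd hu) (hnb t (by omega))
      · exact hd'
  exact ⟨i, hir, ⟨hup, hdown, hnb⟩⟩

/-! ### P3 -/

theorem IsPath.snd_up {p r i : ℕ} {w : ℕ → kˣ × ℕ} (h : IsPath p r i w) (t : ℕ) (ht : t ≤ i) :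
    (w t).2 = p ^ t * (w 0).2 := by
  induction t with
  | zero => simp
  | succ t ih =>
    rw [(h.up t (by omega)).2, ih (by omega), pow_succ]
    ring

theorem IsPath.snd_down {p r i : ℕ} {w : ℕ → kˣ × ℕ} (h : IsPath p r i w) (t : ℕ) (hit : i ≤ t)
    (htr : t ≤ r) : (w t).2 * p ^ (t - i) = p ^ i * (w 0).2 := by
  induction t, hit using Nat.le_induction with
  | base => rw [Nat.sub_self, pow_zero, mul_one, h.snd_up i le_rfl]
  | succ t hit ih =>
    have hd := (h.down t hit (by omega)).2
    rw [← ih (by omega), ← hd, show t + 1 - i = (t - i) + 1 by omega, pow_succ]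
    ring

/-- **(P3)** the exponent at the end of a path of shape `(r, i)`. -/
theorem IsPath.snd_eq {p r i : ℕ} {w : ℕ → kˣ × ℕ} (h : IsPath p r i w) (hi : i ≤ r) :
    (w r).2 * p ^ (r - i) = p ^ i * (w 0).2 :=
  h.snd_down r hi le_rfl

/-! ### P2 -/

/-- truncation of a sequence after the index `r` -/
def truncPath (r : ℕ) (w : ℕ → kˣ × ℕ) : ℕ → kˣ × ℕ := fun t => w (min t r)

theorem truncPath_apply (r : ℕ) (w : ℕ → kˣ × ℕ) (t : ℕ) : truncPath r w t = w (min t r) := rfl

theorem truncPath_apply_of_le {r t : ℕ} (w : ℕ → kˣ × ℕ) (h : t ≤ r) : truncPath r w t = w t := by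
  rw [truncPath_apply, min_eq_left h]

theorem IsPath.congr {p r i : ℕ} {w w' : ℕ → kˣ × ℕ} (h : IsPath p r i w) (hi : i ≤ r)
    (heq : ∀ t ≤ r, w' t = w t) : IsPath p r i w' := by
  refine ⟨fun t ht => ?_, fun t hit htr => ?_, fun t ht => ?_⟩
  · rw [heq t (by omega), heq (t + 1) (by omega)]
    exact h.up t ht
  · rw [heq t (by omega), heq (t + 1) (by omega)]
    exact h.down t hit htr
  · rw [heq t (by omega), heq (t + 2) ht]
    exact h.nb t ht

theorem IsPath.restrict {p r i : ℕ} {w : ℕ → kˣ × ℕ} (h : IsPath p (r + 1) i w) :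
    IsPath p r i w :=
  ⟨h.up, fun t hit htr => h.down t hit (by omega), fun t ht => h.nb t (by omega)⟩

/-- the number of ways of going down `d` steps after `i` steps up. -/
def cntDown (p i : ℕ) : ℕ → ℕ
  | 0 => 1
  | d + 1 => (if d = 0 ∧ 0 < i then p - 1 else p) * cntDown p i d

theorem cntDown_zero_left (p d : ℕ) : cntDown p 0 d = p ^ d := by
  induction d with
  | zero => rfl
  | succ d ih =>
    rw [cntDown, ih, if_neg (by omega), pow_succ, mul_comm]

theorem cntDown_succ_of_pos (p i d : ℕ) (hi : 0 < i) :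
    cntDown p i (d + 1) = (p - 1) * p ^ d := by
  induction d with
  | zero => simp [cntDown, hi]
  | succ d ih =>
    rw [cntDown, ih, if_neg (by omega), pow_succ]
    ring

theorem cntDown_eq_cnt {p : ℕ} (hp : p.Prime) (i d : ℕ) : cntDown p i d = cnt p (i + d) i := by
  unfold cnt
  rcases Nat.eq_zero_or_pos d with rfl | hd
  · have h1 : min i (2 * i) = i := by omega
    simp [cntDown, h1]
  obtain ⟨d, rfl⟩ := Nat.exists_eq_add_one_of_ne_zero hd.ne'
  rcases Nat.eq_zero_or_pos i with rfl | hi
  · rw [cntDown_zero_left]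
    simp
  rw [cntDown_succ_of_pos p i d hi]
  rcases le_or_gt (d + 1) i with hdi | hdi
  · have h1 : min (i + (d + 1)) (2 * i) = i + (d + 1) := by omega
    have h2 : min i (i + (d + 1) - i) = d + 1 := by omega
    rw [h1, h2, Nat.sub_self, pow_zero, one_mul, Nat.totient_prime_pow hp (Nat.succ_pos d),
      Nat.succ_sub_one, mul_comm]
  · have h1 : min (i + (d + 1)) (2 * i) = 2 * i := by omega
    have h2 : min i (i + (d + 1) - i) = i := by omega
    rw [h1, h2, Nat.totient_prime_pow hp hi, ← mul_assoc, ← pow_add,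
      show i + (d + 1) - 2 * i + (i - 1) = d by omega, mul_comm]

/-- paths with the same starting point agree during the ascent. -/
theorem IsPath.eq_up {p r i : ℕ} {w w' : ℕ → kˣ × ℕ} (h : IsPath p r i w) (h' : IsPath p r i w')
    (h0 : w 0 = w' 0) (t : ℕ) (ht : t ≤ i) : w t = w' t := by
  induction t with
  | zero => exact h0
  | succ t ih =>
    have h1 := h.up t (by omega)
    have h2 := h'.up t (by omega)
    rw [← ih (by omega)] at h2
    exact h1.unique h2

theorem card_paths_le_aux {p : ℕ} (hp : p.Prime) (w0 : kˣ × ℕ) (i d : ℕ) :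
    ∀ Ps : Finset (ℕ → kˣ × ℕ), (∀ w ∈ Ps, w 0 = w0 ∧ IsPath p (i + d) i w) →
      (∀ w ∈ Ps, ∀ w' ∈ Ps, (∀ t ≤ i + d, w t = w' t) → w = w') → Ps.card ≤ cntDown p i d := by
  classical
  induction d with
  | zero =>
    intro Ps h1 h2
    rw [cntDown, Finset.card_le_one]
    intro w hw w' hw'
    refine h2 w hw w' hw' fun t ht => ?_
    exact (h1 w hw).2.eq_up (h1 w' hw').2 ((h1 w hw).1.trans (h1 w' hw').1.symm) t (by omega)
  | succ d ih =>
    intro Ps h1 h2
    set r := i + d with hr
    have hr1 : i + (d + 1) = r + 1 := by omega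
    rw [hr1] at h1 h2
    set f : (ℕ → kˣ × ℕ) → (ℕ → kˣ × ℕ) := truncPath r with hf
    -- the truncated family
    have hih := ih (Ps.image f) (by
      intro w' hw'
      obtain ⟨w, hw, rfl⟩ := Finset.mem_image.mp hw'
      refine ⟨?_, ?_⟩
      · rw [hf, truncPath_apply_of_le w (Nat.zero_le r)]
        exact (h1 w hw).1
      · exact (h1 w hw).2.restrict.congr (by omega) (fun t ht => truncPath_apply_of_le w ht)) (by
      intro w₁' hw₁' w₂' hw₂' heq
      obtain ⟨w₁, -, rfl⟩ := Finset.mem_image.mp hw₁'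
      obtain ⟨w₂, -, rfl⟩ := Finset.mem_image.mp hw₂'
      funext t
      have := heq (min t r) (min_le_right t r)
      rw [hf, truncPath_apply_of_le w₁ (min_le_right t r),
        truncPath_apply_of_le w₂ (min_le_right t r)] at this
      exact this)
    -- the fibres
    set n : ℕ := if d = 0 ∧ 0 < i then p - 1 else p with hn
    have hfib : ∀ b ∈ Ps.image f, (Ps.filter fun w => f w = b).card ≤ n := by
      intro b hb
      obtain ⟨wb, hwb, rfl⟩ := Finset.mem_image.mp hb
      set s := Ps.filter fun w => f w = f wb with hs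
      have hmem : ∀ w ∈ s, w ∈ Ps ∧ ∀ t ≤ r, w t = wb t := by
        intro w hw
        rw [hs, Finset.mem_filter] at hw
        refine ⟨hw.1, fun t ht => ?_⟩
        have := congrFun hw.2 t
        rwa [hf, truncPath_apply_of_le w ht, truncPath_apply_of_le wb ht] at this
      set ζ : k := ((wb r).1 : k) with hζ
      let g : (ℕ → kˣ × ℕ) → k := fun w => ((w (r + 1)).1 : k)
      have hdown : ∀ w ∈ s, IsDown p (wb r) (w (r + 1)) := by
        intro w hw
        have := (h1 w (hmem w hw).1).2.down r (by omega) (by omega)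
        rwa [(hmem w hw).2 r le_rfl] at this
      have hginj : Set.InjOn g (s : Set (ℕ → kˣ × ℕ)) := by
        intro w hw w' hw' hgw
        have hw := Finset.mem_coe.mp hw
        have hw' := Finset.mem_coe.mp hw'
        refine h2 w (hmem w hw).1 w' (hmem w' hw').1 fun t ht => ?_
        rcases Nat.lt_or_ge t (r + 1) with hlt | hge
        · rw [(hmem w hw).2 t (by omega), (hmem w' hw').2 t (by omega)]
        · have ht' : t = r + 1 := by omega
          subst ht'
          refine Prod.ext (Units.ext hgw) ?_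
          have e1 := (hdown w hw).2
          have e2 := (hdown w' hw').2
          exact Nat.eq_of_mul_eq_mul_left hp.pos (e1.trans e2.symm)
      have hgroot : ∀ w ∈ s, g w ∈ (Polynomial.nthRoots p ζ).toFinset := by
        intro w hw
        rw [Multiset.mem_toFinset, Polynomial.mem_nthRoots hp.pos]
        have := (hdown w hw).1
        show ((w (r + 1)).1 : k) ^ p = ((wb r).1 : k)
        rw [← Units.val_pow_eq_pow_val, this]
      have hTcard : (Polynomial.nthRoots p ζ).toFinset.card ≤ p :=
        (Multiset.toFinset_card_le _).trans (Polynomial.card_nthRoots p ζ)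
      by_cases hcase : d = 0 ∧ 0 < i
      · rw [hn, if_pos hcase]
        obtain ⟨hd0, hipos⟩ := hcase
        obtain ⟨j, rfl⟩ := Nat.exists_eq_succ_of_ne_zero hipos.ne'
        have hrj : r = j + 1 := by omega
        set ξ₀ : k := ((wb j).1 : k) with hξ₀
        have hup := (h1 wb hwb).2.up j (by omega)
        have hξ₀mem : ξ₀ ∈ (Polynomial.nthRoots p ζ).toFinset := by
          rw [Multiset.mem_toFinset, Polynomial.mem_nthRoots hp.pos, hξ₀, hζ, hrj,
            ← Units.val_pow_eq_pow_val, hup.1]
        have hmaps : Set.MapsTo g (s : Set (ℕ → kˣ × ℕ))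
            (((Polynomial.nthRoots p ζ).toFinset.erase ξ₀ : Finset k) : Set k) := by
          intro w hw
          have hw := Finset.mem_coe.mp hw
          rw [Finset.mem_coe, Finset.mem_erase]
          refine ⟨fun hgw => ?_, hgroot w hw⟩
          apply (h1 w (hmem w hw).1).2.nb j (by omega)
          rw [(hmem w hw).2 j (by omega), show j + 2 = r + 1 by omega]
          refine Prod.ext (Units.ext hgw) ?_
          have e1 := (hdown w hw).2
          rw [hrj, hup.2] at e1
          rw [hrj]
          exact Nat.eq_of_mul_eq_mul_left hp.pos e1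
        calc s.card ≤ ((Polynomial.nthRoots p ζ).toFinset.erase ξ₀).card :=
              Finset.card_le_card_of_injOn g hmaps hginj
          _ = (Polynomial.nthRoots p ζ).toFinset.card - 1 := Finset.card_erase_of_mem hξ₀mem
          _ ≤ p - 1 := Nat.sub_le_sub_right hTcard 1
      · rw [hn, if_neg hcase]
        exact (Finset.card_le_card_of_injOn g (fun w hw => hgroot w (Finset.mem_coe.mp hw))
          hginj).trans hTcard
    calc Ps.card ≤ n * (Ps.image f).card := Finset.card_le_mul_card_image Ps n hfib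
      _ ≤ n * cntDown p i d := Nat.mul_le_mul_left n hih
      _ = cntDown p i (d + 1) := rfl

/-- **(P2)** the number of paths of shape `(r, i)` starting at a given vertex. -/
theorem card_paths_le {p : ℕ} (hp : p.Prime) (w0 : kˣ × ℕ) (_h0 : w0.2 ≠ 0) (r i : ℕ) (hi : i ≤ r)
    (Ps : Finset (ℕ → kˣ × ℕ)) (h1 : ∀ w ∈ Ps, w 0 = w0 ∧ IsPath p r i w)
    (h2 : ∀ w ∈ Ps, ∀ w' ∈ Ps, (∀ t ≤ r, w t = w' t) → w = w') : Ps.card ≤ cnt p r i := by
  obtain ⟨d, rfl⟩ := Nat.exists_eq_add_of_le hi
  rw [← cntDown_eq_cnt hp]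
  exact card_paths_le_aux hp w0 i d Ps h1 h2

end Fermat.Agent.S18lib.Gink
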