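/-
S18lib / Gink / CuspCount  (helper4)

(Cusp-k), the count: there are at most `nu M a` configurations of Tate vertices on the divisors
of `M` with given base vertex `(1, e₀)` and given type `a` at `M`.  Induction over the prime
factorisation of `M`: a configuration on `M₀ p^r` is determined by its truncation to `M₀` and its
`p`-path.
-/
import Fermat.Agent.S18lib.Gink.CuspConf
import Fermat.Agent.S18lib.Gink.CuspArith
import Fermat.Agent.S18lib.Gink.CuspPath

set_option autoImplicit false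

noncomputable section

namespace Fermat.Agent.S18lib.Gink

variable {k : Type*} [Field k]

/-- truncation of a configuration to the divisors of `M₀` -/
def truncConf (M₀ : ℕ) (c : ℕ → kˣ × ℕ) (δ : ℕ) : kˣ × ℕ := if δ ∣ M₀ then c δ else (1, 0)

/-- the `p`-path of a configuration -/
def pathConf (p r : ℕ) (c : ℕ → kˣ × ℕ) (t : ℕ) : kˣ × ℕ := if t ≤ r then c (p ^ t) else (1, 0)

theorem truncConf_of_dvd {M₀ : ℕ} (c : ℕ → kˣ × ℕ) {δ : ℕ} (h : δ ∣ M₀) :
    truncConf M₀ c δ = c δ := if_pos h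

theorem truncConf_of_not_dvd {M₀ : ℕ} (c : ℕ → kˣ × ℕ) {δ : ℕ} (h : ¬ δ ∣ M₀) :
    truncConf M₀ c δ = (1, 0) := if_neg h

theorem pathConf_of_le {p r : ℕ} (c : ℕ → kˣ × ℕ) {t : ℕ} (h : t ≤ r) :
    pathConf p r c t = c (p ^ t) := if_pos h

theorem pathConf_of_not_le {p r : ℕ} (c : ℕ → kˣ × ℕ) {t : ℕ} (h : ¬ t ≤ r) :
    pathConf p r c t = (1, 0) := if_neg h

namespace IsConf

variable {e₀ M : ℕ} {c : ℕ → kˣ × ℕ}

theorem truncConf (hc : IsConf e₀ M c) {M₀ : ℕ} (h : M₀ ∣ M) :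
    IsConf e₀ M₀ (truncConf M₀ c) where
  base := by rw [truncConf_of_dvd c (one_dvd _)]; exact hc.base
  adj δ p hp hδ := by
    have h1 : δ ∣ M₀ := (Dvd.intro _ rfl).trans hδ
    rw [truncConf_of_dvd c h1, truncConf_of_dvd c hδ]
    exact hc.adj δ p hp (hδ.trans h)
  nb δ p hp hδ := by
    have h1 : δ ∣ M₀ := (show δ ∣ δ * p * p from ⟨p * p, by ring⟩).trans hδ
    rw [truncConf_of_dvd c h1, truncConf_of_dvd c hδ]
    exact hc.nb δ p hp (hδ.trans h)

section Product

variable {p M₀ r : ℕ}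

/-- the `p`-path of a configuration on `M₀ p^r` is a non-backtracking path -/
theorem exists_isPath_pathConf (hc : IsConf e₀ (M₀ * p ^ r) c) (he₀ : e₀ ≠ 0) (hp : p.Prime) :
    ∃ i ≤ r, IsPath p r i (pathConf p r c) := by
  refine exists_isPath hp (pathConf p r c) ?_ r ?_ ?_
  · rw [pathConf_of_le c (Nat.zero_le r), pow_zero, hc.base]; exact he₀
  · intro t ht
    rw [pathConf_of_le c ht.le, pathConf_of_le c (show t + 1 ≤ r from ht), pow_succ]
    refine hc.adj (p ^ t) p hp ?_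
    have h3 : p ^ t * p = 1 * p ^ (t + 1) := by rw [pow_succ]; ring
    rw [h3]; exact dvd_of_dvd_of_le (one_dvd M₀) ht
  · intro t ht
    rw [pathConf_of_le c ht, pathConf_of_le c (show t ≤ r by omega)]
    have h3 : p ^ (t + 2) = p ^ t * p * p := by rw [pow_succ, pow_succ]
    rw [h3]
    refine hc.nb (p ^ t) p hp ?_
    have h4 : p ^ t * p * p = 1 * p ^ (t + 2) := by rw [h3]; ring
    rw [h4]; exact dvd_of_dvd_of_le (one_dvd M₀) ht

/-- the type at `M₀ p^r` is the product of the type at `M₀` and the type of the `p`-path -/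
theorem type_eq (hc : IsConf e₀ (M₀ * p ^ r) c) (he₀ : e₀ ≠ 0) (hM₀ : M₀ ≠ 0) (hp : p.Prime)
    (hpM : ¬ p ∣ M₀) {a : ℕ} (ha : a ∣ M₀ * p ^ r)
    (htype : (c (M₀ * p ^ r)).2 * (M₀ * p ^ r / a) = e₀ * a)
    {a₀ d₀ i : ℕ} (had : a₀ * d₀ = M₀) (h0 : (c M₀).2 * d₀ = e₀ * a₀) (hi : i ≤ r)
    (hP : (c (p ^ r)).2 * p ^ (r - i) = p ^ i * e₀) : a = a₀ * p ^ i := by
  have hM : M₀ * p ^ r ≠ 0 := Nat.mul_ne_zero hM₀ (pow_ne_zero _ hp.ne_zero)
  have he : (c (M₀ * p ^ r)).2 ≠ 0 := hc.snd_ne_zero he₀ _ hM dvd_rfl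
  have h4 := hc.snd_mul he₀ hM₀ hp hpM (dvd_refl M₀) r le_rfl
  set e := (c (M₀ * p ^ r)).2 with hedef
  set a' := M₀ * p ^ r / a with ha'
  have haa' : a * a' = M₀ * p ^ r := Nat.mul_div_cancel' ha
  set A := a₀ * p ^ i with hA
  set D := d₀ * p ^ (r - i) with hD
  have hAD : A * D = M₀ * p ^ r := by
    rw [hA, hD, ← had]
    have : p ^ r = p ^ i * p ^ (r - i) := by rw [← pow_add]; congr 1; omega
    rw [this]; ring
  have h5 : e * D = e₀ * A := by
    have h6 : e₀ * (e * D) = e₀ * (e₀ * A) := by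
      calc e₀ * (e * D) = (e * e₀) * (d₀ * p ^ (r - i)) := by rw [hD]; ring
        _ = ((c M₀).2 * d₀) * ((c (p ^ r)).2 * p ^ (r - i)) := by rw [h4]; ring
        _ = e₀ * (e₀ * A) := by rw [h0, hP, hA]; ring
    exact Nat.eq_of_mul_eq_mul_left (Nat.pos_of_ne_zero he₀) h6
  have hD0 : D ≠ 0 := fun h => hM (by rw [← hAD, h, mul_zero])
  have h7 : a' * A = D * a := by
    have h8 : e * (a' * A) = e * (D * a) := by
      calc e * (a' * A) = (e * a') * A := by ring
        _ = (e₀ * a) * A := by rw [htype]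
        _ = (e₀ * A) * a := by ring
        _ = (e * D) * a := by rw [h5]
        _ = e * (D * a) := by ring
    exact Nat.eq_of_mul_eq_mul_left (Nat.pos_of_ne_zero he) h8
  have h9 : D * (A * A) = D * (a * a) := by
    calc D * (A * A) = A * (A * D) := by ring
      _ = A * (a * a') := by rw [hAD, haa']
      _ = a * (a' * A) := by ring
      _ = a * (D * a) := by rw [h7]
      _ = D * (a * a) := by ring
  have h10 : A * A = a * a := Nat.eq_of_mul_eq_mul_left (Nat.pos_of_ne_zero hD0) h9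
  exact (Nat.mul_self_inj.mp h10).symm

end Product

end IsConf

/-- every divisor of `M₀ p^r` is `δ₀ p^t` with `δ₀ ∣ M₀`, `t ≤ r` -/
theorem exists_eq_mul_pow_of_dvd {p M₀ r δ : ℕ} (hp : p.Prime) (hM₀ : M₀ ≠ 0) (hpM : ¬ p ∣ M₀)
    (hδ : δ ∣ M₀ * p ^ r) : ∃ δ₀ t : ℕ, δ₀ ∣ M₀ ∧ t ≤ r ∧ ¬ p ∣ δ₀ ∧ δ = δ₀ * p ^ t := by
  have hM : M₀ * p ^ r ≠ 0 := Nat.mul_ne_zero hM₀ (pow_ne_zero _ hp.ne_zero)
  have hδ0 : δ ≠ 0 := ne_zero_of_dvd_ne_zero hM hδ
  obtain ⟨t, δ₀, hpδ₀, rfl⟩ := Nat.exists_eq_pow_mul_and_not_dvd hδ0 p hp.ne_one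
  have hcop : Nat.Coprime δ₀ (p ^ r) :=
    (((Nat.Prime.coprime_iff_not_dvd hp).2 hpδ₀).symm).pow_right r
  have h1 : δ₀ ∣ M₀ := hcop.dvd_of_dvd_mul_right ((Dvd.intro_left _ rfl).trans hδ)
  have hcop2 : Nat.Coprime (p ^ t) M₀ :=
    ((Nat.Prime.coprime_iff_not_dvd hp).2 hpM).pow_left t
  have h2 : p ^ t ∣ p ^ r := hcop2.dvd_of_dvd_mul_left ((Dvd.intro _ rfl).trans hδ)
  have h3 : t ≤ r := (Nat.pow_dvd_pow_iff_le_right hp.one_lt).mp h2
  exact ⟨δ₀, t, h1, h3, hpδ₀, mul_comm _ _⟩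

/-- **The count.** At most `nu M a` configurations with base `(1, e₀)` and type `a` at `M`. -/
theorem card_conf_le {e₀ : ℕ} (he₀ : e₀ ≠ 0) : ∀ M : ℕ, M ≠ 0 → ∀ a : ℕ, a ∣ M →
    ∀ Cs : Finset (ℕ → kˣ × ℕ), (∀ c ∈ Cs, IsConf e₀ M c) →
    (∀ c ∈ Cs, (c M).2 * (M / a) = e₀ * a) →
    (∀ c ∈ Cs, ∀ c' ∈ Cs, (∀ δ, δ ∣ M → c δ = c' δ) → c = c') → Cs.card ≤ nu M a := by
  classical
  intro M
  induction M using Nat.strong_induction_on with
  | _ M ih =>
    intro hM a ha Cs hconf htype hinj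
    by_cases hM1 : M = 1
    · subst hM1
      have ha1 : a = 1 := Nat.dvd_one.mp ha
      subst ha1
      rw [nu_one]
      apply Finset.card_le_one.mpr
      intro c hc c' hc'
      apply hinj c hc c' hc'
      intro δ hδ
      rw [Nat.dvd_one.mp hδ, (hconf c hc).base, (hconf c' hc').base]
    · have hp : (M.minFac).Prime := Nat.minFac_prime hM1
      have hpdvd : M.minFac ∣ M := Nat.minFac_dvd M
      obtain ⟨r, M₀, hpM, hMeq⟩ := Nat.exists_eq_pow_mul_and_not_dvd hM M.minFac hp.ne_one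
      generalize M.minFac = p at hp hpM hMeq hpdvd
      have hMeq' : M = M₀ * p ^ r := by rw [hMeq, mul_comm]
      subst hMeq'
      have hM₀ : M₀ ≠ 0 := fun h => hM (by rw [h, zero_mul])
      have hr0 : r ≠ 0 := by
        rintro rfl
        apply hpM
        have : p ∣ M₀ * p ^ 0 := hpdvd
        rwa [pow_zero, mul_one] at this
      have hlt : M₀ < M₀ * p ^ r := by
        have h2 : 2 ≤ p ^ r := by
          calc 2 ≤ p := hp.two_le
            _ = p ^ 1 := (pow_one p).symm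
            _ ≤ p ^ r := Nat.pow_le_pow_right hp.pos (Nat.one_le_iff_ne_zero.mpr hr0)
        have : 0 < M₀ := Nat.pos_of_ne_zero hM₀
        nlinarith
      -- decompose `a`
      have ha0 : a ≠ 0 := ne_zero_of_dvd_ne_zero hM ha
      obtain ⟨i, a₀, hpa₀, rfl⟩ := Nat.exists_eq_pow_mul_and_not_dvd ha0 p hp.ne_one
      obtain ⟨a₀', i', ha₀M, hir, -, haeq⟩ := exists_eq_mul_pow_of_dvd hp hM₀ hpM ha
      have hpa₀' : ¬ p ∣ a₀' := fun h => hpM (h.trans ha₀M)
      obtain ⟨rfl, rfl⟩ := eq_of_mul_pow_eq hp hpa₀ hpa₀' ((mul_comm _ _).trans haeq)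
      rw [mul_comm (p ^ i) a₀] at ha htype ⊢
      -- data attached to every configuration of the family
      have hdata : ∀ c ∈ Cs, (c M₀).2 * (M₀ / a₀) = e₀ * a₀ ∧
          IsPath p r i (pathConf p r c) := by
        intro c hc
        have hcc := hconf c hc
        obtain ⟨b₀, d₀, hbd, h0⟩ := (hcc.mono (Dvd.intro _ rfl)).exists_type M₀ hM₀ dvd_rfl
        obtain ⟨j, hj, hpath⟩ := hcc.exists_isPath_pathConf he₀ hp
        have hP := hpath.snd_eq hj
        rw [pathConf_of_le c le_rfl, pathConf_of_le c (Nat.zero_le r), pow_zero, hcc.base] at hP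
        have hb₀M : b₀ ∣ M₀ := Dvd.intro _ hbd
        have hpb₀ : ¬ p ∣ b₀ := fun h => hpM (h.trans hb₀M)
        have h1 := hcc.type_eq he₀ hM₀ hp hpM ha (htype c hc) hbd h0 hj hP
        obtain ⟨rfl, rfl⟩ := eq_of_mul_pow_eq hp hpa₀ hpb₀ h1
        refine ⟨?_, hpath⟩
        have hd₀ : M₀ / a₀ = d₀ := by
          rw [← hbd]
          exact Nat.mul_div_cancel_left d₀ (Nat.pos_of_ne_zero (ne_zero_of_dvd_ne_zero hM₀ hb₀M))
        rw [hd₀]; exact h0
      -- the truncated family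
      have hIH := ih M₀ hlt hM₀ a₀ ha₀M (Cs.image (truncConf M₀)) ?_ ?_ ?_
      · rw [nu_mul_prime_pow hp hM₀ hpM ha₀M hir, mul_comm]
        refine (Finset.card_le_mul_card_image (f := truncConf M₀) Cs (cnt p r i) ?_).trans
          (Nat.mul_le_mul_left _ hIH)
        intro c₀ _
        -- the fibre injects into the set of paths
        have hinjOn : Set.InjOn (pathConf p r)
            (↑(Cs.filter (fun c => truncConf M₀ c = c₀)) : Set (ℕ → kˣ × ℕ)) := by
          intro c hc c' hc' hcc'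
          rw [Finset.coe_filter] at hc hc'
          refine hinj c hc.1 c' hc'.1 ?_
          intro δ hδ
          obtain ⟨δ₀, t, hδ₀, ht, -, rfl⟩ := exists_eq_mul_pow_of_dvd hp hM₀ hpM hδ
          refine (hconf c hc.1).eq_of_eq (hconf c' hc'.1) he₀ hM₀ hp hpM ?_ ?_ t ht δ₀ hδ₀
          · intro δ₁ hδ₁
            have := congrFun (hc.2.trans hc'.2.symm) δ₁
            rwa [truncConf_of_dvd c hδ₁, truncConf_of_dvd c' hδ₁] at this
          · intro s hs
            have := congrFun hcc' s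
            rwa [pathConf_of_le c hs, pathConf_of_le c' hs] at this
        rw [← Finset.card_image_of_injOn hinjOn]
        refine card_paths_le hp ((1 : kˣ), e₀) he₀ r i hir _ ?_ ?_
        · intro w hw
          obtain ⟨c, hc, rfl⟩ := Finset.mem_image.mp hw
          have hc' := (Finset.mem_filter.mp hc).1
          refine ⟨?_, (hdata c hc').2⟩
          rw [pathConf_of_le c (Nat.zero_le r), pow_zero, (hconf c hc').base]
        · intro w hw w' hw' hww'
          obtain ⟨c, hc, rfl⟩ := Finset.mem_image.mp hw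
          obtain ⟨c', hc', rfl⟩ := Finset.mem_image.mp hw'
          funext t
          by_cases ht : t ≤ r
          · exact hww' t ht
          · rw [pathConf_of_not_le c ht, pathConf_of_not_le c' ht]
      · intro c₀ hc₀
        obtain ⟨c, hc, rfl⟩ := Finset.mem_image.mp hc₀
        exact (hconf c hc).truncConf (Dvd.intro _ rfl)
      · intro c₀ hc₀
        obtain ⟨c, hc, rfl⟩ := Finset.mem_image.mp hc₀
        rw [truncConf_of_dvd c dvd_rfl]
        exact (hdata c hc).1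
      · intro c₀ hc₀ c₀' hc₀' h
        obtain ⟨c, hc, rfl⟩ := Finset.mem_image.mp hc₀
        obtain ⟨c', hc', rfl⟩ := Finset.mem_image.mp hc₀'
        funext δ
        by_cases hδ : δ ∣ M₀
        · exact h δ hδ
        · rw [truncConf_of_not_dvd c hδ, truncConf_of_not_dvd c' hδ]
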